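/-
PROJECT L (S31): the arithmetic inputs `(C)`, `(UR)`, `(ES)` of
`Fermat.Agent.S31.Assembly.HasHeckeModule` for the Tate module `Λ := Tp p (JZero N)` with the
Galois action `r := Tp.galoisHom G_ℚ`.

Hypotheses (the same `(H1)`, `(H2)` as in `S30/Final/Chain.lean`):

* `hred : Torsion.HasReductionAll N p`  (project I; a theorem: `S30/Final/H1.hasReductionAll`);
* `hfin : {y : JZero N | p • y = 0}.Finite`.

Results (no Hecke algebra action `θ` is involved; the Hecke operator appears as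
`Tp.mapEnd (heckeEnd N ⟨ℓ, hℓ⟩)`):

* `cont`  : adic continuity of `r` (open stabilisers on `J[pⁿ]`, `Smooth`);
* `unram` : `r σ = 1` for `σ` in an inertia group at `q ∤ N`, `q ≠ p` (`Torsion.inertia_trivial`);
* `eichlerShimura` : `r τ * r τ - Tp.mapEnd (T_ℓ) * r τ + ℓ = 0` for every Frobenius lift `τ` at
  `ℓ ∤ N`, `ℓ ≠ p` (`Torsion.frobenius_relation`);
* `commute_mapEnd` : `Tp.mapEnd (T_r)` commutes with `r σ` for every prime `r`
  (`HeckeGalois.heckeOperatorBar_smul`).
-/
import Fermat.Agent.S30.Padic.TateModule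
import Fermat.Agent.S30.Arith.TateInputs
import Fermat.Agent.S30.Arith.TorsionFinite

set_option autoImplicit false

noncomputable section

namespace Fermat.Agent.S31.TateArith

open ModularCurve
open Fermat.Agent.S30.Padic.TateModule Fermat.Agent.S30.Arith
open Fermat.Agent.S30.Arith.TateInputs

local notation "Kb" => AlgebraicClosure ℚ
local notation "GQ" => (AlgebraicClosure ℚ ≃ₐ[ℚ] AlgebraicClosure ℚ)

variable (N : ℕ) [NeZero N] (p : ℕ) [Fact p.Prime]

/-- **(C)** adic continuity of the Galois action on `Tp p (JZero N)`: for every `n` there is a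
finite extension `L/ℚ` such that every `u` fixing `L` is congruent to the identity modulo `pⁿ`. -/
theorem cont (hfin : {y : JZero N | p • y = 0}.Finite) (n : ℕ) :
    ∃ L : IntermediateField ℚ Kb, FiniteDimensional ℚ L ∧
      ∀ u : GQ, (∀ x ∈ L, u x = x) → ∀ v : Tp p (JZero N),
        Tp.galoisHom (p := p) (J := JZero N) GQ u v - v ∈
          (Ideal.span {(p : ℤ_[p])} ^ n) • (⊤ : Submodule ℤ_[p] (Tp p (JZero N))) := by
  obtain ⟨L, hL, h⟩ := openStabilisers N p (TorsionFinite.finite_pow_torsion p hfin) n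
  refine ⟨L, hL, fun u hu v => ?_⟩
  obtain ⟨y, hy⟩ := Tp.exists_galoisHom_sub_eq_pow_smul (p := p) u n (h u hu) v
  rw [hy, Ideal.span_singleton_pow, Submodule.ideal_span_singleton_smul]
  exact Submodule.smul_mem_pointwise_smul y _ ⊤ Submodule.mem_top

omit [NeZero N] in
/-- An element of `G_ℚ` acting trivially on `J[p^∞]` acts trivially on the Tate module. -/
theorem galoisHom_eq_one {σ : GQ}
    (h : ∀ y : JZero N, (∃ n : ℕ, p ^ n • y = 0) → σ • y = y) :
    Tp.galoisHom (p := p) (J := JZero N) GQ σ = 1 := by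
  ext x k
  rw [Tp.coe_galoisHom_apply, Module.End.one_apply]
  exact h _ (Tp.isTorsion_apply x k)

/-- **(UR)** the inertia groups at `q ∤ N`, `q ≠ p` act trivially on `Tp p (JZero N)`. -/
theorem unram (hred : Torsion.HasReductionAll N p) (q : ℕ) (hq : q.Prime) (hqN : ¬ q ∣ N)
    (hqp : q ≠ p) :
    ∀ P : ValuationSubring Kb, P.LiesOverPrime q → ∀ σ ∈ P.inertiaSubgroupIn ℚ,
      Tp.galoisHom (p := p) (J := JZero N) GQ σ = 1 := by
  intro P hP σ hσ
  exact galoisHom_eq_one N p fun y hy =>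
    Torsion.inertia_trivial hred Fact.out hq hqN hqp P hP hσ hy

/-- **(ES)** the Eichler-Shimura relation on `Tp p (JZero N)`: every Frobenius lift `τ` at a prime
`ℓ ∤ N`, `ℓ ≠ p` satisfies `τ² - T_ℓ τ + ℓ = 0`. -/
theorem eichlerShimura (hred : Torsion.HasReductionAll N p) (ℓ : ℕ) (hℓ : ℓ.Prime)
    (hℓN : ¬ ℓ ∣ N) (hℓp : ℓ ≠ p) :
    ∀ A : ValuationSubring Kb, A.LiesOverPrime ℓ → ∀ τ : GQ, A.IsFrobeniusAt τ ℓ →
      Tp.galoisHom (p := p) (J := JZero N) GQ τ * Tp.galoisHom (p := p) (J := JZero N) GQ τ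
        - Tp.mapEnd (p := p) (heckeEnd N ⟨ℓ, hℓ⟩) * Tp.galoisHom (p := p) (J := JZero N) GQ τ
        + ((ℓ : ℕ) : Module.End ℤ_[p] (Tp p (JZero N))) = 0 := by
  intro A hA τ hτ
  ext x k
  have e := Torsion.frobenius_relation hred Fact.out hℓ hℓN hℓp A hA hτ (Tp.isTorsion_apply x k)
  rw [LinearMap.add_apply, LinearMap.sub_apply, Module.End.mul_apply, Module.End.mul_apply,
    LinearMap.zero_apply, Tp.coe_add_apply, Tp.coe_sub_apply, Tp.coe_galoisHom_apply,
    Tp.coe_galoisHom_apply, Tp.coe_mapEnd_apply, Tp.coe_galoisHom_apply, heckeEnd_apply,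
    Tp.coe_zero_apply]
  have h3 : (((ℓ : ℕ) : Module.End ℤ_[p] (Tp p (JZero N))) x).1 k = ℓ • x.1 k := by
    rw [Module.End.natCast_apply]
    rfl
  rw [h3]
  exact e

/-- **(K), operator form**: `Tp.mapEnd (T_r)` commutes with the Galois action, for every prime
`r`. -/
theorem commute_mapEnd (r : Nat.Primes) (σ : GQ) :
    Commute (Tp.mapEnd (p := p) (heckeEnd N r))
      (Tp.galoisHom (p := p) (J := JZero N) GQ σ) :=
  (Tp.commute_galoisHom_mapEnd (p := p) σ (heckeEnd N r)
    (fun y => heckeEnd_smul N σ r y)).symm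

end Fermat.Agent.S31.TateArith

end
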