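import Mathlib

/-!
# PROJECT K (S31): the Lucas sequence `Q_j(a, d)` and powers of a root of `X² - aX + d`

`Q_j(a, d) = x^j + y^j` for `x + y = a`, `x y = d`:  `Q_0 = 2`, `Q_1 = a`,
`Q_(j+2) = a Q_(j+1) - d Q_j`.

* in ANY ring: if `x² - a x + d = 0` with `a`, `d`, `x` pairwise commuting, then
  `x^j + (a - x)^j = Q_j(a, d)` and `(x^j)² - Q_j(a, d) x^j + d^j = 0` (`pow_quadratic`);
* for an endomorphism `f` of a free module of rank `2` with characteristic polynomial
  `X² - aX + d`: `tr (f^j) = Q_j(a, d)`, `det (f^j) = d^j` and
  `charpoly (f^j) = X² - Q_j(a, d) X + d^j` (`charpoly_pow`).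
-/

set_option autoImplicit false

namespace Fermat.Agent.S31.Lucas

open Polynomial

/-! ### the sequence -/

section Def

variable {R : Type*} [Ring R]

/-- the Lucas sequence `Q_j(a, d) = x^j + y^j` for `x + y = a`, `x y = d` -/
def Q (a d : R) : ℕ → R
  | 0 => 2
  | 1 => a
  | (j + 2) => a * Q a d (j + 1) - d * Q a d j

@[simp] theorem Q_zero (a d : R) : Q a d 0 = 2 := by rw [Q]

@[simp] theorem Q_one (a d : R) : Q a d 1 = a := by rw [Q]

theorem Q_add_two (a d : R) (j : ℕ) : Q a d (j + 2) = a * Q a d (j + 1) - d * Q a d j := by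
  rw [Q]

theorem map_Q {R' : Type*} [Ring R'] (f : R →+* R') (a d : R) (j : ℕ) :
    f (Q a d j) = Q (f a) (f d) j := by
  induction j using Nat.twoStepInduction with
  | zero => rw [Q_zero, Q_zero, map_ofNat]
  | one => rw [Q_one, Q_one]
  | more j h1 h2 => rw [Q_add_two, Q_add_two, map_sub, map_mul, map_mul, h1, h2]

/-- anything commuting with `a` and `d` commutes with `Q_j(a, d)` -/
theorem commute_Q {z a d : R} (hza : Commute z a) (hzd : Commute z d) (j : ℕ) :
    Commute z (Q a d j) := by
  induction j using Nat.twoStepInduction with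
  | zero =>
    rw [Q_zero]
    exact Commute.ofNat_right z 2
  | one => rwa [Q_one]
  | more j h1 h2 =>
    rw [Q_add_two]
    exact (hza.mul_right h2).sub_right (hzd.mul_right h1)

end Def

/-! ### commutative rings -/

section Comm

variable {C : Type*} [CommRing C] {x a d : C}

theorem mul_sub_self_comm (h : x * x - a * x + d = 0) : x * (a - x) = d := by
  linear_combination (-1 : C) * h

theorem pow_add_pow_comm (h : x * x - a * x + d = 0) (j : ℕ) :
    x ^ j + (a - x) ^ j = Q a d j := by
  induction j using Nat.twoStepInduction with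
  | zero => rw [Q_zero, pow_zero, pow_zero]; norm_num
  | one => rw [Q_one, pow_one, pow_one]; ring
  | more j h1 h2 =>
    rw [Q_add_two, ← h1, ← h2]
    linear_combination (x ^ j + (a - x) ^ j) * h

theorem pow_quadratic_comm (h : x * x - a * x + d = 0) (j : ℕ) :
    x ^ j * x ^ j - Q a d j * x ^ j + d ^ j = 0 := by
  rw [← pow_add_pow_comm h, ← mul_sub_self_comm h, mul_pow]
  ring

end Comm

/-! ### arbitrary rings -/

section NonComm

universe u

variable {R : Type u} [Ring R] {x a d : R}

theorem mul_sub_self (hxa : Commute x a) (h : x * x - a * x + d = 0) : x * (a - x) = d := by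
  rw [mul_sub, hxa.eq]
  have h1 : d = a * x - x * x := by
    have h2 : x * x - a * x + d - (x * x - a * x) = 0 - (x * x - a * x) := by rw [h]
    rw [add_sub_cancel_left, zero_sub, neg_sub] at h2
    exact h2
  exact h1.symm

set_option linter.deprecated false in
set_option linter.style.haveILetI false in
/-- the commutative subring generated by three pairwise commuting elements -/
theorem exists_commRing (hxa : Commute x a) (hxd : Commute x d) (had : Commute a d) :
    ∃ (C : Type u) (_ : CommRing C) (ι : C →+* R) (x' a' d' : C),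
      ι x' = x ∧ ι a' = a ∧ ι d' = d ∧ Function.Injective ι := by
  have hcomm : ∀ u ∈ ({x, a, d} : Set R), ∀ v ∈ ({x, a, d} : Set R), u * v = v * u := by
    intro u hu v hv
    simp only [Set.mem_insert_iff, Set.mem_singleton_iff] at hu hv
    rcases hu with rfl | rfl | rfl <;> rcases hv with rfl | rfl | rfl
    · rfl
    · exact hxa.eq
    · exact hxd.eq
    · exact hxa.eq.symm
    · rfl
    · exact had.eq
    · exact hxd.eq.symm
    · exact had.eq.symm
    · rfl
  letI := Subring.closureCommRingOfComm hcomm
  refine ⟨↥(Subring.closure ({x, a, d} : Set R)), inferInstance,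
    (Subring.closure ({x, a, d} : Set R)).subtype,
    ⟨x, Subring.subset_closure (by simp)⟩, ⟨a, Subring.subset_closure (by simp)⟩,
    ⟨d, Subring.subset_closure (by simp)⟩, rfl, rfl, rfl, Subtype.val_injective⟩

theorem pow_add_pow (hxa : Commute x a) (hxd : Commute x d) (had : Commute a d)
    (h : x * x - a * x + d = 0) (j : ℕ) : x ^ j + (a - x) ^ j = Q a d j := by
  obtain ⟨C, _, ι, x', a', d', rfl, rfl, rfl, hι⟩ := exists_commRing hxa hxd had
  have h' : x' * x' - a' * x' + d' = 0 := by
    apply hι
    rw [map_add, map_sub, map_mul, map_mul, map_zero]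
    exact h
  rw [← map_Q, ← pow_add_pow_comm h' j, map_add, map_pow, map_pow, map_sub]

/-- **powers of a root of `X² - aX + d` are roots of `X² - Q_j(a,d) X + d^j`** -/
theorem pow_quadratic (hxa : Commute x a) (hxd : Commute x d) (had : Commute a d)
    (h : x * x - a * x + d = 0) (j : ℕ) : x ^ j * x ^ j - Q a d j * x ^ j + d ^ j = 0 := by
  obtain ⟨C, _, ι, x', a', d', rfl, rfl, rfl, hι⟩ := exists_commRing hxa hxd had
  have h' : x' * x' - a' * x' + d' = 0 := by
    apply hι
    rw [map_add, map_sub, map_mul, map_mul, map_zero]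
    exact h
  have h2 := congrArg ι (pow_quadratic_comm h' j)
  rw [map_add, map_sub, map_mul, map_mul, map_pow, map_pow, map_Q, map_zero] at h2
  exact h2

end NonComm

/-! ### endomorphisms of a free module of rank two -/

section Rank2

variable {T : Type*} [CommRing T] {V : Type*} [AddCommGroup V] [Module T V]
  [Module.Free T V] [Module.Finite T V]

/-- the characteristic polynomial in rank two -/
theorem charpoly_fin_two' (hV : Module.finrank T V = 2) (f : Module.End T V) :
    f.charpoly = X ^ 2 - C (LinearMap.trace T V f) * X + C (LinearMap.det f) := by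
  rcases subsingleton_or_nontrivial T with hT | hT
  · exact Subsingleton.elim _ _
  let b : Module.Basis (Fin 2) T V := Module.finBasisOfFinrankEq T V hV
  rw [← LinearMap.charpoly_toMatrix f b, Matrix.charpoly_fin_two,
    LinearMap.trace_eq_matrix_trace T b f, LinearMap.det_toMatrix b f]

variable {a d : T} {f : Module.End T V}

theorem trace_eq_of_charpoly (hV : Module.finrank T V = 2)
    (hf : f.charpoly = X ^ 2 - C a * X + C d) : LinearMap.trace T V f = a := by
  have h := charpoly_fin_two' hV f
  rw [hf] at h
  have h1 := congrArg (fun p : T[X] => p.coeff 1) h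
  simp only [coeff_add, coeff_sub, coeff_X_pow, coeff_C_mul, coeff_X_one, coeff_C] at h1
  simpa using h1.symm

theorem det_eq_of_charpoly (hV : Module.finrank T V = 2)
    (hf : f.charpoly = X ^ 2 - C a * X + C d) : LinearMap.det f = d := by
  have h := charpoly_fin_two' hV f
  rw [hf] at h
  have h1 := congrArg (fun p : T[X] => p.coeff 0) h
  simp only [coeff_add, coeff_sub, coeff_X_pow, coeff_C_mul, coeff_X_zero, coeff_C_zero] at h1
  simpa using h1.symm

/-- Cayley–Hamilton in the form used here -/
theorem quadratic_of_charpoly (hf : f.charpoly = X ^ 2 - C a * X + C d) :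
    f * f - algebraMap T (Module.End T V) a * f + algebraMap T (Module.End T V) d = 0 := by
  have h := LinearMap.aeval_self_charpoly f
  rw [hf] at h
  simpa [pow_two] using h

theorem trace_pow (hV : Module.finrank T V = 2) (hf : f.charpoly = X ^ 2 - C a * X + C d)
    (j : ℕ) : LinearMap.trace T V (f ^ j) = Q a d j := by
  have hq := quadratic_of_charpoly hf
  induction j using Nat.twoStepInduction with
  | zero => rw [pow_zero, LinearMap.trace_one, hV, Q_zero]; norm_num
  | one => rw [pow_one, Q_one, trace_eq_of_charpoly hV hf]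
  | more j h1 h2 =>
    have h3 : f ^ (j + 2) = a • f ^ (j + 1) - d • f ^ j := by
      have h4 : f * f = algebraMap T (Module.End T V) a * f -
          algebraMap T (Module.End T V) d := by
        have h5 : f * f + algebraMap T (Module.End T V) d -
            algebraMap T (Module.End T V) a * f = 0 := by
          rw [← hq]
          abel
        exact eq_sub_of_add_eq (sub_eq_zero.mp h5)
      have e1 : f ^ j * (algebraMap T (Module.End T V) a * f) = a • f ^ (j + 1) := by
        rw [← mul_assoc, ← Algebra.commutes, mul_assoc, ← pow_succ, Algebra.smul_def]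
      have e2 : f ^ j * algebraMap T (Module.End T V) d = d • f ^ j := by
        rw [← Algebra.commutes, Algebra.smul_def]
      rw [pow_add, pow_two, h4, mul_sub, e1, e2]
    rw [h3, map_sub, map_smul, map_smul, h1, h2, Q_add_two, smul_eq_mul, smul_eq_mul]

theorem det_pow (hV : Module.finrank T V = 2) (hf : f.charpoly = X ^ 2 - C a * X + C d)
    (j : ℕ) : LinearMap.det (f ^ j) = d ^ j := by
  rw [map_pow, det_eq_of_charpoly hV hf]

/-- **the characteristic polynomial of a power**, rank two -/
theorem charpoly_pow (hV : Module.finrank T V = 2) (hf : f.charpoly = X ^ 2 - C a * X + C d)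
    (j : ℕ) : (f ^ j).charpoly = X ^ 2 - C (Q a d j) * X + C (d ^ j) := by
  rw [charpoly_fin_two' hV, trace_pow hV hf, det_pow hV hf]

end Rank2

end Fermat.Agent.S31.Lucas
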