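import Mathlib
import Fermat.Prelude.Def_GaloisRep_Adic
import Fermat.Prelude.Def_EllipticCurve_FrobeniusTrace
import Fermat.Agent.S53.Centralizer
import Fermat.Agent.S30.Algebra.DetGalois

/-!
# PROJECT L (S31), abstract core: unramifiedness from a faithful Hecke-Galois module

`ρ : GaloisRepAdic T` (`T` any local ring, `𝔪`-adically separated; nilpotents allowed, no
characteristic hypothesis) with absolutely irreducible residual representation and
`charpoly ρ(τ) = X² - π(T_ℓ) X + ℓ` at all Frobenius lifts `τ` at `ℓ ∉ Σ`, where `π : 𝕋 →+* T`.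

Suppose there is a "Hecke-Galois module": an `R₀`-module `Λ` (think `R₀ = ℤ_p`,
`Λ = T_p J₀(N)`) with a continuous action `r` of `G_ℚ`, an action `θ` of `𝕋` commuting with the
`r(g)`, the Eichler-Shimura relation `r(τ)² - θ(T_ℓ) r(τ) + ℓ = 0` at Frobenius lifts, a character
`ε` with `ε(τ) = ℓ`, and the `p`-adic faithfulness `hinj` (`θ(t) ∈ I₀^{n'} End Λ → π t ∈ 𝔪^n`).

Then every `σ` with `r(σ) = 1` and `ε(σ) = 1` satisfies `ρ(σ) = 1`
(`rho_eq_one_of_heckeModule`).  The proof compares `tr ρ` with the Hecke-valued trace carried by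
`Λ` (Lucas sequences + the existence form of Frobenius' density theorem), and then uses
`span ρ(G) = End V` (Burnside + Nakayama, `S53.Centralizer.span_range_eq_top`).
-/

set_option autoImplicit false
set_option linter.unusedSectionVars false
set_option linter.style.haveILetI false

namespace Fermat.Agent.S31.Core

open Polynomial IsLocalRing

/-- `ℚbar`. -/
abbrev Qbar := AlgebraicClosure ℚ

/-- The absolute Galois group of `ℚ`. -/
abbrev GQ := Qbar ≃ₐ[ℚ] Qbar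

/-! ### Lucas sequences -/

section Lucas

/-- The Lucas sequence `V_j(a, d)`: `V_0 = 2`, `V_1 = a`, `V_{j+2} = a V_{j+1} - d V_j`. -/
def lucas {E : Type*} [Ring E] (a d : E) : ℕ → E
  | 0 => 2
  | 1 => a
  | (j + 2) => a * lucas a d (j + 1) - d * lucas a d j

@[simp] theorem lucas_zero {E : Type*} [Ring E] (a d : E) : lucas a d 0 = 2 := rfl

@[simp] theorem lucas_one {E : Type*} [Ring E] (a d : E) : lucas a d 1 = a := rfl

theorem lucas_add_two {E : Type*} [Ring E] (a d : E) (j : ℕ) :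
    lucas a d (j + 2) = a * lucas a d (j + 1) - d * lucas a d j := rfl

theorem map_lucas {E E' : Type*} [Ring E] [Ring E'] (f : E →+* E') (a d : E) (j : ℕ) :
    f (lucas a d j) = lucas (f a) (f d) j := by
  have key : ∀ j, f (lucas a d j) = lucas (f a) (f d) j ∧
      f (lucas a d (j + 1)) = lucas (f a) (f d) (j + 1) := by
    intro j
    induction j with
    | zero => exact ⟨by rw [lucas_zero, lucas_zero, map_ofNat], by simp⟩
    | succ j ih =>
      refine ⟨ih.2, ?_⟩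
      rw [lucas_add_two, lucas_add_two, map_sub, map_mul, map_mul, ih.1, ih.2]
  exact (key j).1

theorem lucas_eq_pow_add_pow {K : Type*} [CommRing K] (x a d : K)
    (h : x * x - a * x + d = 0) (j : ℕ) : lucas a d j = x ^ j + (a - x) ^ j := by
  have key : ∀ j, lucas a d j = x ^ j + (a - x) ^ j ∧
      lucas a d (j + 1) = x ^ (j + 1) + (a - x) ^ (j + 1) := by
    intro j
    induction j with
    | zero => exact ⟨by simp; norm_num, by simp⟩
    | succ j ih =>
      refine ⟨ih.2, ?_⟩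
      rw [lucas_add_two, ih.1, ih.2]
      linear_combination (-(x ^ j + (a - x) ^ j)) * h
  exact (key j).1

theorem pow_mul_pow_sub_lucas {K : Type*} [CommRing K] (x a d : K)
    (h : x * x - a * x + d = 0) (j : ℕ) :
    x ^ j * x ^ j - lucas a d j * x ^ j + d ^ j = 0 := by
  have hd : d = x * (a - x) := by linear_combination h
  rw [lucas_eq_pow_add_pow x a d h j, hd, mul_pow]
  ring

open scoped IsMulCommutative in
/-- Noncommutative version: `x` satisfies a monic quadratic with coefficient `a` commuting with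
`x` and constant term a natural number. -/
theorem pow_mul_pow_sub_lucas_of_commute {E : Type*} [Ring E] (x a : E) (d : ℕ)
    (hax : Commute a x) (h : x * x - a * x + (d : E) = 0) (j : ℕ) :
    x ^ j * x ^ j - lucas a (d : E) j * x ^ j + (d : E) ^ j = 0 := by
  classical
  have hs : ∀ u ∈ ({x, a} : Set E), ∀ v ∈ ({x, a} : Set E), u * v = v * u := by
    rintro u (rfl | rfl) v (rfl | rfl)
    · rfl
    · exact hax.eq.symm
    · exact hax.eq
    · rfl
  haveI : IsMulCommutative (Subring.closure ({x, a} : Set E)) :=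
    Subring.isMulCommutative_closure hs
  let x' : Subring.closure ({x, a} : Set E) := ⟨x, Subring.subset_closure (by simp)⟩
  let a' : Subring.closure ({x, a} : Set E) := ⟨a, Subring.subset_closure (by simp)⟩
  have h' : x' * x' - a' * x' + ((d : ℕ) : Subring.closure ({x, a} : Set E)) = 0 := by
    apply Subtype.ext
    simpa [x', a'] using h
  have h2 := pow_mul_pow_sub_lucas x' a' ((d : ℕ) : Subring.closure ({x, a} : Set E)) h' j
  have hl : ((lucas a' ((d : ℕ) : Subring.closure ({x, a} : Set E)) j :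
      Subring.closure ({x, a} : Set E)) : E) = lucas a (d : E) j := by
    have := map_lucas (Subring.subtype (Subring.closure ({x, a} : Set E))) a'
      ((d : ℕ) : Subring.closure ({x, a} : Set E)) j
    simpa [a'] using this
  have h3 := congrArg (Subring.subtype (Subring.closure ({x, a} : Set E))) h2
  rw [← hl]
  simpa [x', a'] using h3

end Lucas

/-! ### Endomorphisms that are small modulo an ideal -/

section Small

variable {R : Type*} [CommRing R] {V : Type*} [AddCommGroup V] [Module R V]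

/-- The endomorphisms of `V` with image in `I V`; a two-sided ideal of `End V`. -/
def smallEnd (I : Ideal R) : Submodule R (Module.End R V) where
  carrier := {f | ∀ v, f v ∈ I • (⊤ : Submodule R V)}
  add_mem' := fun {f g} hf hg v => by
    rw [LinearMap.add_apply]
    exact Submodule.add_mem _ (hf v) (hg v)
  zero_mem' := fun v => by
    rw [LinearMap.zero_apply]
    exact Submodule.zero_mem _
  smul_mem' := fun c f hf v => by
    rw [LinearMap.smul_apply]
    exact Submodule.smul_mem _ c (hf v)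

theorem mem_smallEnd {I : Ideal R} {f : Module.End R V} :
    f ∈ smallEnd (V := V) I ↔ ∀ v, f v ∈ I • (⊤ : Submodule R V) := Iff.rfl

theorem map_mem_smul_top (I : Ideal R) (f : Module.End R V) {w : V}
    (hw : w ∈ I • (⊤ : Submodule R V)) : f w ∈ I • (⊤ : Submodule R V) := by
  refine Submodule.smul_induction_on (p := fun w => f w ∈ I • (⊤ : Submodule R V)) hw ?_ ?_
  · intro a ha v _
    rw [map_smul]
    exact Submodule.smul_mem_smul ha Submodule.mem_top
  · intro x y hx hy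
    rw [map_add]
    exact Submodule.add_mem _ hx hy

theorem mul_mem_smallEnd_left {I : Ideal R} (f : Module.End R V) {g : Module.End R V}
    (hg : g ∈ smallEnd (V := V) I) : f * g ∈ smallEnd (V := V) I := fun v => by
  rw [Module.End.mul_apply]
  exact map_mem_smul_top I f (hg v)

theorem mul_mem_smallEnd_right {I : Ideal R} {f : Module.End R V} (g : Module.End R V)
    (hf : f ∈ smallEnd (V := V) I) : f * g ∈ smallEnd (V := V) I := fun v => by
  rw [Module.End.mul_apply]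
  exact hf (g v)

theorem smallEnd_mono {I J : Ideal R} (h : I ≤ J) :
    smallEnd (V := V) I ≤ smallEnd (V := V) J := fun _ hf v =>
  Submodule.smul_mono_left h (hf v)

theorem smul_one_mem_smallEnd {I : Ideal R} {c : R} (hc : c ∈ I) :
    c • (1 : Module.End R V) ∈ smallEnd (V := V) I := fun v => by
  rw [LinearMap.smul_apply, Module.End.one_apply]
  exact Submodule.smul_mem_smul hc Submodule.mem_top

/-- Congruence of products. -/
theorem mul_sub_mul_mem_smallEnd {I : Ideal R} {f f' g g' : Module.End R V}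
    (hf : f - f' ∈ smallEnd (V := V) I) (hg : g - g' ∈ smallEnd (V := V) I) :
    f * g - f' * g' ∈ smallEnd (V := V) I := by
  have : f * g - f' * g' = f * (g - g') + (f - f') * g' := by noncomm_ring
  rw [this]
  exact Submodule.add_mem _ (mul_mem_smallEnd_left f hg) (mul_mem_smallEnd_right g' hf)

/-- Congruence of powers. -/
theorem pow_sub_pow_mem_smallEnd {I : Ideal R} {f f' : Module.End R V}
    (hf : f - f' ∈ smallEnd (V := V) I) (j : ℕ) : f ^ j - f' ^ j ∈ smallEnd (V := V) I := by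
  induction j with
  | zero => rw [pow_zero, pow_zero, sub_self]; exact Submodule.zero_mem _
  | succ j ih => rw [pow_succ, pow_succ]; exact mul_sub_mul_mem_smallEnd ih hf

/-- The trace of a small endomorphism of a finite free module lies in the ideal. -/
theorem trace_mem_of_mem_smallEnd [Module.Free R V] [Module.Finite R V] {I : Ideal R}
    {f : Module.End R V} (hf : f ∈ smallEnd (V := V) I) : LinearMap.trace R V f ∈ I := by
  classical
  let b := Module.Free.chooseBasis R V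
  rw [LinearMap.trace_eq_matrix_trace R b f, Matrix.trace]
  refine Ideal.sum_mem _ fun i _ => ?_
  rw [Matrix.diag_apply, LinearMap.toMatrix_apply]
  exact Fermat.Agent.S30.Algebra.DetLemma.End.repr_mem_of_mem_smul_top b I _ (hf (b i)) i

end Small

/-! ### Traces of powers in rank two -/

section TracePow

variable {R : Type*} [CommRing R] {V : Type*} [AddCommGroup V] [Module R V]
  [Module.Free R V] [Module.Finite R V]

theorem trace_of_charpoly [Nontrivial R] (h2 : Module.finrank R V = 2) (f : Module.End R V)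
    (a d : R) (hf : LinearMap.charpoly f = X ^ 2 - C a * X + C d) :
    LinearMap.trace R V f = a := by
  classical
  let b := Module.finBasisOfFinrankEq R V h2
  have h1 : (LinearMap.toMatrix b b f).charpoly = X ^ 2 - C a * X + C d := by
    rw [← hf, LinearMap.charpoly_toMatrix]
  rw [Matrix.charpoly_fin_two] at h1
  have h3 := congrArg (fun q : R[X] => q.coeff 1) h1
  simp only [coeff_add, coeff_sub, coeff_X_pow, coeff_C_mul, coeff_X_one, coeff_C] at h3
  rw [LinearMap.trace_eq_matrix_trace R b f]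
  simpa using h3

/-- `tr (f ^ j)` is the Lucas sequence in `tr f`, `det f` (rank two, via Cayley-Hamilton). -/
theorem trace_pow_eq_lucas [Nontrivial R] (h2 : Module.finrank R V = 2) (f : Module.End R V)
    (a d : R) (hf : LinearMap.charpoly f = X ^ 2 - C a * X + C d) (j : ℕ) :
    LinearMap.trace R V (f ^ j) = lucas a d j := by
  have hCH : f * f = a • f - d • (1 : Module.End R V) := by
    have h := LinearMap.aeval_self_charpoly f
    rw [hf] at h
    simp only [map_add, map_sub, map_mul, map_pow, aeval_X, aeval_C,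
      Module.algebraMap_end_eq_smul_id] at h
    rw [sq, smul_mul_assoc, ← Module.End.one_eq_id, one_mul] at h
    rw [← sub_eq_zero, ← h]
    abel
  have key : ∀ j, LinearMap.trace R V (f ^ j) = lucas a d j ∧
      LinearMap.trace R V (f ^ (j + 1)) = lucas a d (j + 1) := by
    intro j
    induction j with
    | zero =>
      refine ⟨?_, ?_⟩
      · rw [pow_zero, LinearMap.trace_one, h2, lucas_zero]; norm_num
      · rw [zero_add, pow_one, lucas_one, trace_of_charpoly h2 f a d hf]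
    | succ j ih =>
      refine ⟨ih.2, ?_⟩
      have : f ^ (j + 1 + 1) = a • f ^ (j + 1) - d • f ^ j := by
        rw [pow_succ, pow_succ, mul_assoc, hCH, mul_sub, mul_smul_comm, mul_smul_comm, mul_one,
          ← pow_succ]
      rw [this, map_sub, map_smul, map_smul, ih.1, ih.2, lucas_add_two, smul_eq_mul, smul_eq_mul]
  exact (key j).1

end TracePow

/-! ### Congruences modulo a two-sided ideal along a group homomorphism -/

section TwoSided

/-- An additive subgroup of a ring which is a two-sided ideal. -/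
structure IsTwoSided {E : Type*} [Ring E] (S : AddSubgroup E) : Prop where
  mul_left : ∀ (f : E) {g : E}, g ∈ S → f * g ∈ S
  mul_right : ∀ {f : E} (g : E), f ∈ S → f * g ∈ S

variable {E : Type*} [Ring E] {S : AddSubgroup E}

theorem IsTwoSided.mul_sub_mul (hS : IsTwoSided S) {f f' g g' : E} (hf : f - f' ∈ S)
    (hg : g - g' ∈ S) : f * g - f' * g' ∈ S := by
  have : f * g - f' * g' = f * (g - g') + (f - f') * g' := by noncomm_ring
  rw [this]
  exact S.add_mem (hS.mul_left f hg) (hS.mul_right g' hf)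

theorem IsTwoSided.pow_sub_pow (hS : IsTwoSided S) {f f' : E} (hf : f - f' ∈ S) (j : ℕ) :
    f ^ j - f' ^ j ∈ S := by
  induction j with
  | zero => rw [pow_zero, pow_zero, sub_self]; exact S.zero_mem
  | succ j ih => rw [pow_succ, pow_succ]; exact hS.mul_sub_mul ih hf

/-- If `τ = g ^ k * u₁` and `g = (g ^ k) ^ j * u₂` with `φ u₁ ≡ φ u₂ ≡ 1`, then
`φ g ≡ φ τ ^ j`. -/
theorem IsTwoSided.hom_sub_pow (hS : IsTwoSided S) {G : Type*} [Group G] (φ : G →* E)
    (g τ u₁ u₂ : G) (k j : ℕ) (hτ : τ = g ^ k * u₁) (hg : g = (g ^ k) ^ j * u₂)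
    (h₁ : φ u₁ - 1 ∈ S) (h₂ : φ u₂ - 1 ∈ S) : φ g - φ τ ^ j ∈ S := by
  have e1 : φ τ - φ (g ^ k) ∈ S := by
    have hφτ : φ τ = φ (g ^ k) * φ u₁ := by rw [← map_mul, ← hτ]
    have : φ τ - φ (g ^ k) = φ (g ^ k) * (φ u₁ - 1) := by
      rw [hφτ, mul_sub, mul_one]
    rw [this]
    exact hS.mul_left _ h₁
  have e2 : φ τ ^ j - φ ((g ^ k) ^ j) ∈ S := by
    rw [map_pow φ (g ^ k) j]
    exact hS.pow_sub_pow e1 j
  have e3 : φ g - φ ((g ^ k) ^ j) ∈ S := by
    have hφg : φ g = φ ((g ^ k) ^ j) * φ u₂ := by rw [← map_mul, ← hg]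
    have : φ g - φ ((g ^ k) ^ j) = φ ((g ^ k) ^ j) * (φ u₂ - 1) := by
      rw [hφg, mul_sub, mul_one]
    rw [this]
    exact hS.mul_left _ h₂
  have : φ g - φ τ ^ j = (φ g - φ ((g ^ k) ^ j)) - (φ τ ^ j - φ ((g ^ k) ^ j)) := by abel
  rw [this]
  exact S.sub_mem e3 e2

theorem isTwoSided_smallEnd {R : Type*} [CommRing R] {V : Type*} [AddCommGroup V] [Module R V]
    (I : Ideal R) : IsTwoSided (smallEnd (V := V) I).toAddSubgroup where
  mul_left f _ hg := mul_mem_smallEnd_left f hg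
  mul_right g hf := mul_mem_smallEnd_right g hf

theorem isTwoSided_ideal {R : Type*} [CommRing R] (I : Ideal R) :
    IsTwoSided I.toAddSubgroup where
  mul_left f _ hg := I.mul_mem_left f hg
  mul_right g hf := I.mul_mem_right g hf

end TwoSided

/-! ### The main theorem -/

section Main

open Fermat.Agent.S30.Algebra.DetGalois (Density inv_mul_apply_eq)

variable {T : Type} [CommRing T] [IsLocalRing T]
variable {𝕋 : Type*} [CommRing 𝕋]
variable {R₀ : Type*} [CommRing R₀] {Λ : Type*} [AddCommGroup Λ] [Module R₀ Λ]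

/-- A Hecke-Galois module: `Λ` with a continuous Galois action `r`, a Hecke action `θ` whose
generators `T_ℓ` commute with Galois, a character `ε` (the cyclotomic character), and the
Eichler-Shimura relation at Frobenius lifts outside `Sg`. -/
structure HeckeModule (Sg : Finset ℕ) (I₀ : Ideal R₀) (Tl : ℕ → 𝕋)
    (r : GQ →* Module.End R₀ Λ) (ε : GQ →* R₀) (θ : 𝕋 →+* Module.End R₀ Λ) : Prop where
  cont_r : ∀ n : ℕ, ∃ L : IntermediateField ℚ Qbar, FiniteDimensional ℚ L ∧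
    ∀ u : GQ, (∀ x ∈ L, u x = x) → ∀ v : Λ, r u v - v ∈ (I₀ ^ n) • (⊤ : Submodule R₀ Λ)
  cont_ε : ∀ n : ℕ, ∃ L : IntermediateField ℚ Qbar, FiniteDimensional ℚ L ∧
    ∀ u : GQ, (∀ x ∈ L, u x = x) → ε u - 1 ∈ I₀ ^ n
  frob_ε : ∀ ℓ : ℕ, ℓ.Prime → ℓ ∉ Sg → ∀ A : ValuationSubring Qbar, A.LiesOverPrime ℓ →
    ∀ τ : GQ, A.IsFrobeniusAt τ ℓ → ε τ = (ℓ : R₀)
  comm : ∀ (ℓ : ℕ) (g : GQ), Commute (θ (Tl ℓ)) (r g)
  es : ∀ ℓ : ℕ, ℓ.Prime → ℓ ∉ Sg → ∀ A : ValuationSubring Qbar, A.LiesOverPrime ℓ →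
    ∀ τ : GQ, A.IsFrobeniusAt τ ℓ →
      r τ * r τ - θ (Tl ℓ) * r τ + ((ℓ : ℕ) : Module.End R₀ Λ) = 0

variable {Sg : Finset ℕ} {I₀ : Ideal R₀} {Tl : ℕ → 𝕋} {r : GQ →* Module.End R₀ Λ}
  {ε : GQ →* R₀} {θ : 𝕋 →+* Module.End R₀ Λ}

/-- The characteristic polynomials of `ρ` at Frobenius lifts outside `Sg` are
`X² - π(T_ℓ) X + ℓ`. -/
def FrobCharpolyVia (ρ : GaloisRepAdic T) (Sg : Finset ℕ) (Tl : ℕ → 𝕋) (π : 𝕋 →+* T) : Prop :=
  ∀ ℓ : ℕ, ℓ.Prime → ℓ ∉ Sg → ∀ A : ValuationSubring Qbar, A.LiesOverPrime ℓ →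
    ∀ τ : GQ, A.IsFrobeniusAt τ ℓ →
      LinearMap.charpoly (ρ.ρ τ) = X ^ 2 - C (π (Tl ℓ)) * X + C ((ℓ : T))

/-- **Approximation.** For every `g` and `n` there is a Hecke element `b` such that `g` satisfies
`X² - b X + ε(g)` on `Λ` modulo `I₀ⁿ` and `tr ρ(g) ≡ π b` modulo `𝔪ⁿ`. -/
theorem exists_approx (hM : HeckeModule Sg I₀ Tl r ε θ) (ρ : GaloisRepAdic T) (π : 𝕋 →+* T)
    (hcp : FrobCharpolyVia ρ Sg Tl π) (hdens : Density Sg) (g : GQ) (n : ℕ) :
    ∃ b : 𝕋, r g * r g - θ b * r g + ε g • (1 : Module.End R₀ Λ) ∈ smallEnd (V := Λ) (I₀ ^ n) ∧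
      LinearMap.trace T ρ.V (ρ.ρ g) - π b ∈ maximalIdeal T ^ n := by
  obtain ⟨Lr, hLr, hr⟩ := hM.cont_r n
  obtain ⟨Lε, hLε, hε⟩ := hM.cont_ε n
  obtain ⟨Lρ, hLρ, hρ⟩ := ρ.isAdicContinuous n
  haveI := hLr
  haveI := hLε
  haveI := hLρ
  haveI : FiniteDimensional ℚ ↥(Lr ⊔ Lε) := IntermediateField.finiteDimensional_sup _ _
  obtain ⟨ℓ, hℓ, hℓS, A, τ, k, j, hA, hτ, h1, h2⟩ :=
    hdens (Lr ⊔ Lε ⊔ Lρ) (IntermediateField.finiteDimensional_sup _ _) g
  have hLr' : Lr ≤ Lr ⊔ Lε ⊔ Lρ := le_sup_of_le_left le_sup_left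
  have hLε' : Lε ≤ Lr ⊔ Lε ⊔ Lρ := le_sup_of_le_left le_sup_right
  have hLρ' : Lρ ≤ Lr ⊔ Lε ⊔ Lρ := le_sup_right
  set u₁ : GQ := (g ^ k)⁻¹ * τ with hu₁
  set u₂ : GQ := ((g ^ k) ^ j)⁻¹ * g with hu₂
  have hu₁L : ∀ x ∈ Lr ⊔ Lε ⊔ Lρ, u₁ x = x := fun x hx => inv_mul_apply_eq _ _ x (h1 x hx)
  have hu₂L : ∀ x ∈ Lr ⊔ Lε ⊔ Lρ, u₂ x = x := fun x hx => inv_mul_apply_eq _ _ x (h2 x hx).symm
  have hτeq : τ = g ^ k * u₁ := by rw [hu₁, mul_inv_cancel_left]
  have hgeq : g = (g ^ k) ^ j * u₂ := by rw [hu₂, mul_inv_cancel_left]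
  -- the three congruences
  have hsm : ∀ u : GQ, (∀ x ∈ Lr ⊔ Lε ⊔ Lρ, u x = x) →
      r u - 1 ∈ (smallEnd (V := Λ) (I₀ ^ n)).toAddSubgroup := fun u hu v => by
    rw [LinearMap.sub_apply, Module.End.one_apply]
    exact hr u (fun x hx => hu x (hLr' hx)) v
  have hsmρ : ∀ u : GQ, (∀ x ∈ Lr ⊔ Lε ⊔ Lρ, u x = x) →
      ρ.ρ u - 1 ∈ (smallEnd (V := ρ.V) (maximalIdeal T ^ n)).toAddSubgroup := fun u hu v => by
    rw [LinearMap.sub_apply, Module.End.one_apply]
    exact hρ u (fun x hx => hu x (hLρ' hx)) v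
  have hsmε : ∀ u : GQ, (∀ x ∈ Lr ⊔ Lε ⊔ Lρ, u x = x) →
      ε u - 1 ∈ (I₀ ^ n).toAddSubgroup := fun u hu =>
    hε u (fun x hx => hu x (hLε' hx))
  have c1 : r g - r τ ^ j ∈ (smallEnd (V := Λ) (I₀ ^ n)).toAddSubgroup :=
    (isTwoSided_smallEnd _).hom_sub_pow r g τ u₁ u₂ k j hτeq hgeq (hsm u₁ hu₁L) (hsm u₂ hu₂L)
  have c2 : ρ.ρ g - ρ.ρ τ ^ j ∈ (smallEnd (V := ρ.V) (maximalIdeal T ^ n)).toAddSubgroup :=
    (isTwoSided_smallEnd _).hom_sub_pow ρ.ρ g τ u₁ u₂ k j hτeq hgeq (hsmρ u₁ hu₁L)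
      (hsmρ u₂ hu₂L)
  have c3 : ε g - ε τ ^ j ∈ (I₀ ^ n).toAddSubgroup :=
    (isTwoSided_ideal _).hom_sub_pow ε g τ u₁ u₂ k j hτeq hgeq (hsmε u₁ hu₁L) (hsmε u₂ hu₂L)
  rw [hM.frob_ε ℓ hℓ hℓS A hA τ hτ] at c3
  -- the Hecke element
  refine ⟨lucas (Tl ℓ) ((ℓ : ℕ) : 𝕋) j, ?_, ?_⟩
  · have hex := pow_mul_pow_sub_lucas_of_commute (r τ) (θ (Tl ℓ)) ℓ (hM.comm ℓ τ)
      (hM.es ℓ hℓ hℓS A hA τ hτ) j
    have hθb : θ (lucas (Tl ℓ) ((ℓ : ℕ) : 𝕋) j) =
        lucas (θ (Tl ℓ)) ((ℓ : ℕ) : Module.End R₀ Λ) j := by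
      rw [map_lucas, map_natCast]
    have hcast : ((ℓ : ℕ) : Module.End R₀ Λ) ^ j = ((ℓ : R₀) ^ j) • (1 : Module.End R₀ Λ) := by
      rw [← Algebra.algebraMap_eq_smul_one, map_pow, map_natCast]
    set x := r τ ^ j with hx
    set B := θ (lucas (Tl ℓ) ((ℓ : ℕ) : 𝕋) j) with hB
    rw [← hθb, hcast] at hex
    have hS := isTwoSided_smallEnd (V := Λ) (I₀ ^ n)
    have t1 : r g * r g - x * x ∈ (smallEnd (V := Λ) (I₀ ^ n)).toAddSubgroup :=
      hS.mul_sub_mul c1 c1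
    have t2 : B * (r g - x) ∈ (smallEnd (V := Λ) (I₀ ^ n)).toAddSubgroup := hS.mul_left B c1
    have t3 : (ε g - (ℓ : R₀) ^ j) • (1 : Module.End R₀ Λ) ∈
        (smallEnd (V := Λ) (I₀ ^ n)).toAddSubgroup := smul_one_mem_smallEnd c3
    have : r g * r g - B * r g + ε g • (1 : Module.End R₀ Λ) =
        (r g * r g - x * x) - B * (r g - x) + (ε g - (ℓ : R₀) ^ j) • (1 : Module.End R₀ Λ)
          + (x * x - B * x + ((ℓ : R₀) ^ j) • (1 : Module.End R₀ Λ)) := by
      rw [sub_smul, mul_sub]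
      abel
    rw [this, hex, add_zero]
    exact AddSubgroup.add_mem _ (AddSubgroup.sub_mem _ t1 t2) t3
  · have htr := trace_pow_eq_lucas ρ.finrank_eq (ρ.ρ τ) (π (Tl ℓ)) ((ℓ : ℕ) : T)
      (hcp ℓ hℓ hℓS A hA τ hτ) j
    have hπb : π (lucas (Tl ℓ) ((ℓ : ℕ) : 𝕋) j) = lucas (π (Tl ℓ)) ((ℓ : ℕ) : T) j := by
      rw [map_lucas, map_natCast]
    rw [hπb, ← htr, ← map_sub]
    exact trace_mem_of_mem_smallEnd c2

/-- **Trace comparison.** If `σ` acts trivially on the Hecke-Galois module `Λ` and `ε σ = 1`, then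
`tr ρ(σ g) = tr ρ(g)` for all `g`. -/
theorem trace_mul_eq (hM : HeckeModule Sg I₀ Tl r ε θ) (ρ : GaloisRepAdic T) (π : 𝕋 →+* T)
    (hcp : FrobCharpolyVia ρ Sg Tl π) (hdens : Density Sg)
    (hsep : ∀ x : T, (∀ n, x ∈ maximalIdeal T ^ n) → x = 0)
    (hinj : ∀ n : ℕ, ∃ n' : ℕ, ∀ t : 𝕋,
      (∀ v : Λ, θ t v ∈ (I₀ ^ n') • (⊤ : Submodule R₀ Λ)) → π t ∈ maximalIdeal T ^ n)
    (σ : GQ) (hσ : r σ = 1) (hσε : ε σ = 1) (g : GQ) :
    LinearMap.trace T ρ.V (ρ.ρ (σ * g)) = LinearMap.trace T ρ.V (ρ.ρ g) := by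
  rw [← sub_eq_zero]
  refine hsep _ fun n => ?_
  obtain ⟨n', hn'⟩ := hinj n
  obtain ⟨b, hb1, hb2⟩ := exists_approx hM ρ π hcp hdens g (max n n')
  obtain ⟨b', hb1', hb2'⟩ := exists_approx hM ρ π hcp hdens (σ * g) (max n n')
  rw [map_mul, hσ, one_mul, map_mul, hσε, one_mul] at hb1'
  have hS := isTwoSided_smallEnd (V := Λ) (I₀ ^ max n n')
  have h1 : (θ b' - θ b) * r g ∈ (smallEnd (V := Λ) (I₀ ^ max n n')).toAddSubgroup := by
    have : (θ b' - θ b) * r g = (r g * r g - θ b * r g + ε g • (1 : Module.End R₀ Λ)) -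
        (r g * r g - θ b' * r g + ε g • (1 : Module.End R₀ Λ)) := by
      rw [sub_mul]
      abel
    rw [this]
    exact AddSubgroup.sub_mem _ hb1 hb1'
  have h2 : θ (b' - b) ∈ smallEnd (V := Λ) (I₀ ^ max n n') := by
    have : θ (b' - b) = (θ b' - θ b) * r g * r g⁻¹ := by
      rw [mul_assoc, ← map_mul, mul_inv_cancel, map_one, mul_one, map_sub]
    rw [this]
    exact hS.mul_right _ h1
  have h3 : π (b' - b) ∈ maximalIdeal T ^ n :=
    hn' _ fun v => smallEnd_mono (Ideal.pow_le_pow_right (le_max_right n n')) h2 v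
  have hle : maximalIdeal T ^ max n n' ≤ maximalIdeal T ^ n :=
    Ideal.pow_le_pow_right (le_max_left n n')
  have : LinearMap.trace T ρ.V (ρ.ρ (σ * g)) - LinearMap.trace T ρ.V (ρ.ρ g) =
      (LinearMap.trace T ρ.V (ρ.ρ (σ * g)) - π b') - (LinearMap.trace T ρ.V (ρ.ρ g) - π b)
        + π (b' - b) := by
    rw [map_sub]
    ring
  rw [this]
  exact Ideal.add_mem _ (Ideal.sub_mem _ (hle hb2') (hle hb2)) h3

/-- **The abstract core of S31.** -/
theorem rho_eq_one_of_heckeModule (hM : HeckeModule Sg I₀ Tl r ε θ) (ρ : GaloisRepAdic T)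
    (habs : ρ.residual.IsAbsolutelyIrreducible) (π : 𝕋 →+* T)
    (hcp : FrobCharpolyVia ρ Sg Tl π) (hdens : Density Sg)
    (hsep : ∀ x : T, (∀ n, x ∈ maximalIdeal T ^ n) → x = 0)
    (hinj : ∀ n : ℕ, ∃ n' : ℕ, ∀ t : 𝕋,
      (∀ v : Λ, θ t v ∈ (I₀ ^ n') • (⊤ : Submodule R₀ Λ)) → π t ∈ maximalIdeal T ^ n)
    (σ : GQ) (hσ : r σ = 1) (hσε : ε σ = 1) : ρ.ρ σ = 1 := by
  classical
  have hgen : ∀ g : GQ, LinearMap.trace T ρ.V ((ρ.ρ σ - 1) * ρ.ρ g) = 0 := by
    intro g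
    rw [sub_mul, one_mul, ← map_mul, map_sub, sub_eq_zero]
    exact trace_mul_eq hM ρ π hcp hdens hsep hinj σ hσ hσε g
  have hall : ∀ x : Module.End T ρ.V, LinearMap.trace T ρ.V ((ρ.ρ σ - 1) * x) = 0 := by
    intro x
    have hx : x ∈ Submodule.span T (Set.range ρ.ρ) := by
      rw [Fermat.Agent.S53.Centralizer.span_range_eq_top ρ habs]
      exact Submodule.mem_top
    induction hx using Submodule.span_induction with
    | mem y hy =>
      obtain ⟨g, rfl⟩ := hy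
      exact hgen g
    | zero => rw [mul_zero, map_zero]
    | add y z _ _ hy hz => rw [mul_add, map_add, hy, hz, add_zero]
    | smul c y _ hy => rw [mul_smul_comm, map_smul, hy, smul_zero]
  let b := Module.finBasisOfFinrankEq T ρ.V ρ.finrank_eq
  have hmat : LinearMap.toMatrix b b (ρ.ρ σ - 1) = 0 := by
    rw [Matrix.ext_iff_trace_mul_right]
    intro x
    rw [Matrix.zero_mul, Matrix.trace_zero]
    have h := hall (Matrix.toLin b b x)
    rw [LinearMap.trace_eq_matrix_trace T b, LinearMap.toMatrix_mul,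
      LinearMap.toMatrix_toLin] at h
    exact h
  have : ρ.ρ σ - 1 = 0 := (LinearMap.toMatrix b b).injective (by rw [hmat, map_zero])
  exact sub_eq_zero.1 this

/-- The hypothesis `hinj` of `rho_eq_one_of_heckeModule` from the `p`-adic injectivity of `θ`
(`θ t ∈ I₀^{n'} End Λ → t ∈ pⁿ 𝕋`) and `p ∈ 𝔪_T`. -/
theorem hinj_of_span (p : ℕ) (π : 𝕋 →+* T) (hp : (p : T) ∈ maximalIdeal T)
    (h : ∀ n : ℕ, ∃ n' : ℕ, ∀ t : 𝕋,
      (∀ v : Λ, θ t v ∈ (I₀ ^ n') • (⊤ : Submodule R₀ Λ)) → t ∈ Ideal.span {(p : 𝕋) ^ n}) :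
    ∀ n : ℕ, ∃ n' : ℕ, ∀ t : 𝕋,
      (∀ v : Λ, θ t v ∈ (I₀ ^ n') • (⊤ : Submodule R₀ Λ)) → π t ∈ maximalIdeal T ^ n := by
  intro n
  obtain ⟨n', hn'⟩ := h n
  refine ⟨n', fun t ht => ?_⟩
  obtain ⟨s, rfl⟩ := Ideal.mem_span_singleton.1 (hn' t ht)
  rw [map_mul, map_pow, map_natCast]
  exact Ideal.mul_mem_right _ _ (Ideal.pow_mem_pow hp n)

end Main

/-! ### The `p`-adic specialisation -/

section Padic

open Fermat.Agent.S30.Algebra.DetGalois (Density)
open Fermat.Agent.S30.Algebra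

variable (p : ℕ) [Fact p.Prime]
variable {T : Type} [CommRing T] [IsLocalRing T]
variable {𝕋 : Type*} [CommRing 𝕋]
variable {Λ : Type*} [AddCommGroup Λ] [Module ℤ_[p] Λ]

/-- The `p`-adic cyclotomic character with values in `ℤ_p`. -/
noncomputable def eps : GQ →* ℤ_[p] := Cyclotomic.cycChar p (RingHom.id ℤ_[p])

/-- A `ℤ_p`-module with continuous Galois action, Hecke action commuting with Galois and the
Eichler-Shimura relation is a Hecke-Galois module for the cyclotomic character. -/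
theorem heckeModule_padic {Sg : Finset ℕ} (hpS : p ∈ Sg) (Tl : ℕ → 𝕋)
    (r : GQ →* Module.End ℤ_[p] Λ) (θ : 𝕋 →+* Module.End ℤ_[p] Λ)
    (hcont : ∀ n : ℕ, ∃ L : IntermediateField ℚ Qbar, FiniteDimensional ℚ L ∧
      ∀ u : GQ, (∀ x ∈ L, u x = x) → ∀ v : Λ,
        r u v - v ∈ (Ideal.span {(p : ℤ_[p])} ^ n) • (⊤ : Submodule ℤ_[p] Λ))
    (hcomm : ∀ (ℓ : ℕ) (g : GQ), Commute (θ (Tl ℓ)) (r g))
    (hes : ∀ ℓ : ℕ, ℓ.Prime → ℓ ∉ Sg → ∀ A : ValuationSubring Qbar, A.LiesOverPrime ℓ →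
      ∀ τ : GQ, A.IsFrobeniusAt τ ℓ →
        r τ * r τ - θ (Tl ℓ) * r τ + ((ℓ : ℕ) : Module.End ℤ_[p] Λ) = 0) :
    HeckeModule Sg (Ideal.span {(p : ℤ_[p])}) Tl r (eps p) θ where
  cont_r := hcont
  cont_ε := fun n => Cyclotomic.cycChar_continuous p (RingHom.id ℤ_[p])
    (Ideal.span {(p : ℤ_[p])}) (Ideal.subset_span (Set.mem_singleton _)) n
  frob_ε := fun _ hℓ hℓS A hA τ hτ =>
    Cyclotomic.cycChar_isFrobeniusAt p (RingHom.id ℤ_[p]) hℓ (fun h => hℓS (h ▸ hpS)) A hA τ hτ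
  comm := hcomm
  es := hes

/-- **S31, abstract form.** `ρ` is unramified at every prime `q ≠ p` at which the Hecke-Galois
module `Λ` is unramified. -/
theorem isUnramifiedAt_of_heckeModule {Sg : Finset ℕ} (hpS : p ∈ Sg) (Tl : ℕ → 𝕋)
    (r : GQ →* Module.End ℤ_[p] Λ) (θ : 𝕋 →+* Module.End ℤ_[p] Λ)
    (hcont : ∀ n : ℕ, ∃ L : IntermediateField ℚ Qbar, FiniteDimensional ℚ L ∧
      ∀ u : GQ, (∀ x ∈ L, u x = x) → ∀ v : Λ,
        r u v - v ∈ (Ideal.span {(p : ℤ_[p])} ^ n) • (⊤ : Submodule ℤ_[p] Λ))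
    (hcomm : ∀ (ℓ : ℕ) (g : GQ), Commute (θ (Tl ℓ)) (r g))
    (hes : ∀ ℓ : ℕ, ℓ.Prime → ℓ ∉ Sg → ∀ A : ValuationSubring Qbar, A.LiesOverPrime ℓ →
      ∀ τ : GQ, A.IsFrobeniusAt τ ℓ →
        r τ * r τ - θ (Tl ℓ) * r τ + ((ℓ : ℕ) : Module.End ℤ_[p] Λ) = 0)
    (ρ : GaloisRepAdic T) (habs : ρ.residual.IsAbsolutelyIrreducible) (π : 𝕋 →+* T)
    (hcp : FrobCharpolyVia ρ Sg Tl π) (hdens : Density Sg)
    (hsep : ∀ x : T, (∀ n, x ∈ maximalIdeal T ^ n) → x = 0)
    (hpT : (p : T) ∈ maximalIdeal T)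
    (hinj : ∀ n : ℕ, ∃ n' : ℕ, ∀ t : 𝕋,
      (∀ v : Λ, θ t v ∈ (Ideal.span {(p : ℤ_[p])} ^ n') • (⊤ : Submodule ℤ_[p] Λ)) →
        t ∈ Ideal.span {(p : 𝕋) ^ n})
    (q : ℕ) (hq : q.Prime) (hqp : q ≠ p)
    (hunr : ∀ P : ValuationSubring Qbar, P.LiesOverPrime q →
      ∀ σ ∈ P.inertiaSubgroupIn ℚ, r σ = 1) : ρ.IsUnramifiedAt q := by
  intro P hP σ hσ
  exact rho_eq_one_of_heckeModule (heckeModule_padic p hpS Tl r θ hcont hcomm hes) ρ habs π hcp
    hdens hsep (hinj_of_span p π hpT hinj) σ (hunr P hP σ hσ)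
    (Cyclotomic.cycChar_inertia p (RingHom.id ℤ_[p]) hq hqp P hP σ hσ)

end Padic

end Fermat.Agent.S31.Core
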