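import Mathlib
import Fermat.Prelude.Def_CuspForm_HeckeGaloisRepDatum
import Fermat.Agent.S31.Core
import Fermat.Agent.S30.Density.Bridge

/-!
# PROJECT L (S31), assembly: the frozen S31 statement from a Hecke-Galois module

`HasHeckeModule p N S` is the deliverable of (L2) (`S31/HeckeAction.lean`): a `ℤ_p`-module `Λ`
(in practice `T_p J₀(N)`) with a continuous Galois action, an action of the Hecke algebra
`heckeAlgebra N 2 S` commuting with Galois, the Eichler-Shimura relation at Frobenius lifts outside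
`S`, `p`-adic faithfulness of the Hecke action and trivial inertia at `q ∤ N p`.

`isUnramifiedAt_of_hasHeckeModule` deduces the conclusion of the frozen statement S31 from it
(via `S31.Core.isUnramifiedAt_of_heckeModule` and Frobenius' density theorem, K-1e).
-/

set_option autoImplicit false
set_option linter.unusedSectionVars false
set_option linter.style.haveILetI false

namespace Fermat.Agent.S31.Assembly

open Polynomial IsLocalRing CuspForm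
open Fermat.Agent.S31.Core

/-- The deliverable of (L2): a Hecke-Galois module for `(p, N, S)`. -/
def HasHeckeModule (p : ℕ) [Fact p.Prime] (N : ℕ) [NeZero N] (S : Finset ℕ) : Prop :=
  ∃ (Λ : Type) (_ : AddCommGroup Λ) (_ : Module ℤ_[p] Λ) (r : GQ →* Module.End ℤ_[p] Λ)
    (θ : heckeAlgebra N 2 (↑S : Set ℕ) →+* Module.End ℤ_[p] Λ),
    (∀ n : ℕ, ∃ L : IntermediateField ℚ Qbar, FiniteDimensional ℚ L ∧
      ∀ u : GQ, (∀ x ∈ L, u x = x) → ∀ v : Λ,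
        r u v - v ∈ (Ideal.span {(p : ℤ_[p])} ^ n) • (⊤ : Submodule ℤ_[p] Λ)) ∧
    (∀ (ℓ : ℕ) (hℓ : ℓ.Prime) (hℓN : ¬ ℓ ∣ N) (hℓS : ℓ ∉ (↑S : Set ℕ)) (g : GQ),
      Commute (θ (heckeAlgebra.T hℓ hℓN hℓS)) (r g)) ∧
    (∀ (ℓ : ℕ) (hℓ : ℓ.Prime) (hℓN : ¬ ℓ ∣ N) (hℓS : ℓ ∉ (↑S : Set ℕ)),
      ∀ A : ValuationSubring Qbar, A.LiesOverPrime ℓ → ∀ τ : GQ, A.IsFrobeniusAt τ ℓ →
        r τ * r τ - θ (heckeAlgebra.T hℓ hℓN hℓS) * r τ + ((ℓ : ℕ) : Module.End ℤ_[p] Λ) = 0) ∧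
    (∀ n : ℕ, ∃ n' : ℕ, ∀ t : heckeAlgebra N 2 (↑S : Set ℕ),
      (∀ v : Λ, θ t v ∈ (Ideal.span {(p : ℤ_[p])} ^ n') • (⊤ : Submodule ℤ_[p] Λ)) →
        t ∈ Ideal.span {(p : heckeAlgebra N 2 (↑S : Set ℕ)) ^ n}) ∧
    (∀ q : ℕ, q.Prime → ¬ q ∣ N → q ≠ p → ∀ P : ValuationSubring Qbar, P.LiesOverPrime q →
      ∀ σ ∈ P.inertiaSubgroupIn ℚ, r σ = 1)

section

variable {p : ℕ} [Fact p.Prime] {N : ℕ} [NeZero N] {S : Finset ℕ}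
  {𝒪 : Type} [CommRing 𝒪] [IsDomain 𝒪] [IsDiscreteValuationRing 𝒪]
  [IsAdicComplete (IsLocalRing.maximalIdeal 𝒪) 𝒪]
  {θ : CuspForm.heckeAlgebra N 2 (↑S : Set ℕ) →+* IsLocalRing.ResidueField 𝒪}
  {T : Type} [CommRing T] [IsLocalRing T] [IsNoetherianRing T]
  [IsAdicComplete (IsLocalRing.maximalIdeal T) T] [Algebra 𝒪 T] [IsLocalHom (algebraMap 𝒪 T)]
  [Module.Finite 𝒪 T] [Module.Free 𝒪 T]

/-- The Hecke generators indexed by all natural numbers (zero outside the good primes). -/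
noncomputable def Tl (N : ℕ) [NeZero N] (S : Finset ℕ) (ℓ : ℕ) : heckeAlgebra N 2 (↑S : Set ℕ) :=
  if h : ℓ.Prime ∧ ¬ ℓ ∣ N ∧ ℓ ∉ (↑S : Set ℕ) then heckeAlgebra.T h.1 h.2.1 h.2.2 else 0

theorem Tl_eq {ℓ : ℕ} (hℓ : ℓ.Prime) (hℓN : ¬ ℓ ∣ N) (hℓS : ℓ ∉ (↑S : Set ℕ)) :
    Tl N S ℓ = heckeAlgebra.T hℓ hℓN hℓS := by
  rw [Tl, dif_pos ⟨hℓ, hℓN, hℓS⟩]

/-- **The conclusion of the frozen S31 from a Hecke-Galois module.** -/
theorem isUnramifiedAt_of_hasHeckeModule (hM : HasHeckeModule p N S)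
    (hp𝒪 : (p : 𝒪) ∈ IsLocalRing.maximalIdeal 𝒪) (hpS : p ∈ S)
    (hNS : ∀ q : ℕ, q.Prime → q ∣ N → q ∈ S)
    (H : CuspForm.HeckeGaloisRepDatum N (↑S : Set ℕ) 𝒪 θ T)
    (q : ℕ) (hq : q.Prime) (hqS : q ∉ S) :
    H.ρ.IsUnramifiedAt q := by
  obtain ⟨Λ, _, _, r, θΛ, hcont, hcomm, hes, hinj, hunr⟩ := hM
  have hnotdvd : ∀ ℓ : ℕ, ℓ.Prime → ℓ ∉ S → ¬ ℓ ∣ N := fun ℓ hℓ hℓS h => hℓS (hNS ℓ hℓ h)
  have hcoe : ∀ ℓ : ℕ, ℓ ∉ S → ℓ ∉ (↑S : Set ℕ) := fun ℓ h => by rwa [Finset.mem_coe]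
  have hsep : ∀ x : T, (∀ n, x ∈ maximalIdeal T ^ n) → x = 0 := by
    intro x hx
    have hH : IsHausdorff (maximalIdeal T) T := inferInstance
    apply hH.haus'
    intro n
    rw [SModEq.zero, smul_eq_mul, Ideal.mul_top]
    exact hx n
  have hpT : (p : T) ∈ maximalIdeal T := by
    rw [mem_maximalIdeal, mem_nonunits_iff]
    intro hu
    have h1 : IsUnit (algebraMap 𝒪 T (p : 𝒪)) := by rwa [map_natCast]
    have h2 : IsUnit (p : 𝒪) := (isUnit_map_iff (algebraMap 𝒪 T) _).1 h1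
    exact (mem_nonunits_iff.1 ((mem_maximalIdeal _).1 hp𝒪)) h2
  refine isUnramifiedAt_of_heckeModule p (Sg := S) hpS (Tl N S) r θΛ hcont ?_ ?_ H.ρ
    H.residual_absIrr H.π ?_ (fun L _ s => Fermat.Agent.S30.Density.Bridge.frobenius_density_final L s S)
    hsep hpT hinj q hq (fun h => hqS (h ▸ hpS))
    (hunr q hq (hnotdvd q hq hqS) (fun h => hqS (h ▸ hpS)))
  · intro ℓ g
    by_cases h : ℓ.Prime ∧ ¬ ℓ ∣ N ∧ ℓ ∉ (↑S : Set ℕ)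
    · rw [Tl_eq h.1 h.2.1 h.2.2]
      exact hcomm ℓ h.1 h.2.1 h.2.2 g
    · rw [Tl, dif_neg h, map_zero]
      exact Commute.zero_left _
  · intro ℓ hℓ hℓS A hA τ hτ
    rw [Tl_eq hℓ (hnotdvd ℓ hℓ hℓS) (hcoe ℓ hℓS)]
    exact hes ℓ hℓ (hnotdvd ℓ hℓ hℓS) (hcoe ℓ hℓS) A hA τ hτ
  · intro ℓ hℓ hℓS A hA τ hτ
    rw [Tl_eq hℓ (hnotdvd ℓ hℓ hℓS) (hcoe ℓ hℓS)]
    exact H.charpoly_frob ℓ hℓ (hnotdvd ℓ hℓ hℓS) (hcoe ℓ hℓS) A hA τ hτ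

end

end Fermat.Agent.S31.Assembly
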