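import Fermat.Agent.S31.HeckeModule
import Fermat.Agent.S31.TateArith

/-!
# PROJECT L (S31): `HasHeckeModule p N S` from the S30 inputs

`hasHeckeModule` : `Assembly.HasHeckeModule p N S` with `Λ := Tp p (JZero N)` from

* `hred : Torsion.HasReductionAll N p` (project I) and `hfin : J₀(N)[p]` finite (projects (A)+(B));
* the lattice `(M, τ)` with the Eichler–Shimura isomorphism `(eC, he)` and the Tate comparison
  `(ep, H3)`: exactly the inputs of `S30/Final/Chain.s30_of_inputs`.
-/

set_option autoImplicit false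
set_option linter.unusedSectionVars false

noncomputable section

namespace Fermat.Agent.S31.HeckeModuleFinal

open scoped TensorProduct
open CongruenceSubgroup ModularCurve
open Fermat.Agent.S31.Assembly Fermat.Agent.S30.Eigen.MultOne
open Fermat.Agent.S30.Padic.TateModule Fermat.Agent.S30.Arith Fermat.Agent.S30.Arith.TateInputs

/-- **The Hecke-Galois module of S31** from the inputs of the S30 chain. -/
theorem hasHeckeModule (p : ℕ) [Fact p.Prime] (N : ℕ) [NeZero N] (S : Finset ℕ) (hpS : p ∈ S)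
    (hred : Torsion.HasReductionAll N p) (hfin : {y : JZero N | p • y = 0}.Finite)
    {M : Type*} [AddCommGroup M] [Module.Free ℤ M] [Module.Finite ℤ M]
    {τ : Nat.Primes → Module.End ℤ M}
    {eC : ℂ ⊗[ℤ] M ≃ₗ[ℂ] CuspForm (Gamma0 N) 2 × CuspForm (Gamma0 N) 2}
    (he : ∀ r x, eC ((τ r).baseChange ℂ x) = Prod.map (Tr N 2 r) (Tr N 2 r) (eC x))
    (ep : Tp p (JZero N) ≃ₗ[ℤ_[p]] ℤ_[p] ⊗[ℤ] M)
    (H3 : ∀ (r : Nat.Primes) (x : Tp p (JZero N)),
      ep (Tp.mapEnd (heckeEnd N r) x) = (τ r).baseChange ℤ_[p] (ep x)) :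
    HasHeckeModule p N S :=
  HeckeModule.hasHeckeModule_of p N S hpS he ep H3 (TateArith.cont N p hfin)
    (TateArith.unram N p hred) (TateArith.eichlerShimura N p hred)

end Fermat.Agent.S31.HeckeModuleFinal
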