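import Fermat.Agent.S31.LiftAlg
import Fermat.Agent.S30.Eigen.MultOne
import Fermat.Agent.S30.Padic.TateModule
import Fermat.Agent.S30.Arith.TateInputs

/-!
# PROJECT L (S31), slice L-2: the Hecke algebra acting on the Tate module of `J₀(N)`

Inputs (the same as those of `S30/Final/Chain.lean`): a finite free `ℤ`-module `M` with operators
`τ r` (`r` any prime), an Eichler–Shimura isomorphism `eC : ℂ ⊗ M ≃ S₂(Γ₀(N)) × S₂(Γ₀(N))`
intertwining `τ r` with `Tr N 2 r × Tr N 2 r` (`he`), and a comparison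
`ep : Tp p (JZero N) ≃ ℤ_[p] ⊗ M` intertwining `Tp.mapEnd (heckeEnd N r)` with `τ r` (`H3`).

Outputs, for `TT := heckeAlgebra N 2 S`:

* `thetaLat he : TT →+* End_ℤ M`, injective, `T_ℓ ↦ τ ℓ`;
* `theta he ep : TT →+* End_{ℤ_[p]} (Tp p (JZero N))`, `T_ℓ ↦ Tp.mapEnd (heckeEnd N ℓ)` (`theta_T`);
* `commute_galoisHom_theta` : `theta` commutes with the Galois action on the Tate module;
* `exists_exponent_theta`, `hinj` : **(INJ)** there is `c` such that `theta b ∈ p^(n+c) End` implies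
  `b ∈ p^n TT`;
* `Tl`, `hcomm`, `theta_Tl` : the shapes consumed by `S31/Core.lean`.
-/

set_option autoImplicit false
set_option linter.unusedSectionVars false

noncomputable section

namespace Fermat.Agent.S31.HeckeAction

open scoped TensorProduct
open CongruenceSubgroup ModularCurve
open Fermat.Agent.S31.LiftAlg Fermat.Agent.S30.Eigen.MultOne
open Fermat.Agent.S30.Padic.TateModule Fermat.Agent.S30.Arith.TateInputs

local notation "GQ" => (AlgebraicClosure ℚ ≃ₐ[ℚ] AlgebraicClosure ℚ)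

variable (N : ℕ) [NeZero N] (S : Set ℕ)

/-- The Prelude Hecke algebra lies in the algebra generated by the full family `Tr N 2 r`. -/
theorem heckeAlgebra_le_adjoin :
    CuspForm.heckeAlgebra N 2 S ≤ Algebra.adjoin ℤ (Set.range (Tr N 2)) := by
  rw [heckeAlgebra_eq_adjoin]
  exact Algebra.adjoin_mono (Set.image_subset_range _ _)

variable {N} {M : Type*} [AddCommGroup M] [Module.Free ℤ M]
  {τ : Nat.Primes → Module.End ℤ M}
  {eC : ℂ ⊗[ℤ] M ≃ₗ[ℂ] CuspForm (Gamma0 N) 2 × CuspForm (Gamma0 N) 2}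

/-- The action of the Hecke algebra on the lattice `M`. -/
def thetaLat (he : ∀ r, IsLift eC (Tr N 2 r) (τ r)) :
    CuspForm.heckeAlgebra N 2 S →+* Module.End ℤ M :=
  thetaSub he (heckeAlgebra_le_adjoin N S)

theorem thetaLat_spec (he : ∀ r, IsLift eC (Tr N 2 r) (τ r)) (b : CuspForm.heckeAlgebra N 2 S) :
    IsLift eC (b : Module.End ℂ (CuspForm (Gamma0 N) 2)) (thetaLat S he b) :=
  thetaSub_spec he (heckeAlgebra_le_adjoin N S) b

theorem thetaLat_injective (he : ∀ r, IsLift eC (Tr N 2 r) (τ r)) :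
    Function.Injective (thetaLat S he) :=
  thetaSub_injective he (heckeAlgebra_le_adjoin N S)

theorem thetaLat_mem (he : ∀ r, IsLift eC (Tr N 2 r) (τ r)) (b : CuspForm.heckeAlgebra N 2 S) :
    thetaLat S he b ∈ Algebra.adjoin ℤ (Set.range τ) :=
  thetaSub_mem he (heckeAlgebra_le_adjoin N S) b

/-- `T_ℓ` acts on `M` as `τ ℓ`. -/
theorem thetaLat_T (he : ∀ r, IsLift eC (Tr N 2 r) (τ r))
    {ℓ : ℕ} (hℓ : ℓ.Prime) (hℓN : ¬ ℓ ∣ N) (hℓS : ℓ ∉ S) :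
    thetaLat S he (CuspForm.heckeAlgebra.T hℓ hℓN hℓS) = τ (⟨ℓ, hℓ⟩ : Nat.Primes) := by
  refine (thetaLat_spec S he _).unique ?_
  have h1 : ((CuspForm.heckeAlgebra.T hℓ hℓN hℓS : CuspForm.heckeAlgebra N 2 S) :
      Module.End ℂ (CuspForm (Gamma0 N) 2)) = Tr N 2 (⟨ℓ, hℓ⟩ : Nat.Primes) := by
    rw [CuspForm.heckeAlgebra.coe_T]
    exact (Tr_of_not_dvd N 2 (r := (⟨ℓ, hℓ⟩ : Nat.Primes)) hℓN).symm
  rw [h1]
  exact he _

/-- `U_q` acts on `M` as `τ q`. -/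
theorem thetaLat_U (he : ∀ r, IsLift eC (Tr N 2 r) (τ r))
    {q : ℕ} (hq : q.Prime) (hqN : q ∣ N) (hqS : q ∉ S) :
    thetaLat S he (CuspForm.heckeAlgebra.U hq hqN hqS) = τ (⟨q, hq⟩ : Nat.Primes) := by
  refine (thetaLat_spec S he _).unique ?_
  have h1 : ((CuspForm.heckeAlgebra.U hq hqN hqS : CuspForm.heckeAlgebra N 2 S) :
      Module.End ℂ (CuspForm (Gamma0 N) 2)) = Tr N 2 (⟨q, hq⟩ : Nat.Primes) := by
    rw [CuspForm.heckeAlgebra.coe_U]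
    exact (Tr_of_dvd N 2 (r := (⟨q, hq⟩ : Nat.Primes)) hqN).symm
  rw [h1]
  exact he _

/-! ### The action on the Tate module -/

variable (p : ℕ) [Fact p.Prime]

/-- Transport of endomorphisms of `M` to the Tate module along `ep`. -/
def conjHom (ep : Tp p (JZero N) ≃ₗ[ℤ_[p]] ℤ_[p] ⊗[ℤ] M) :
    Module.End ℤ M →+* Module.End ℤ_[p] (Tp p (JZero N)) :=
  (ep.symm.conjRingEquiv :
      Module.End ℤ_[p] (ℤ_[p] ⊗[ℤ] M) →+* Module.End ℤ_[p] (Tp p (JZero N))).comp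
    (Module.End.baseChangeHom ℤ ℤ_[p] M).toRingHom

theorem conjHom_apply (ep : Tp p (JZero N) ≃ₗ[ℤ_[p]] ℤ_[p] ⊗[ℤ] M) (t : Module.End ℤ M)
    (x : Tp p (JZero N)) : conjHom p ep t x = ep.symm (t.baseChange ℤ_[p] (ep x)) := rfl

theorem conjHom_tau (ep : Tp p (JZero N) ≃ₗ[ℤ_[p]] ℤ_[p] ⊗[ℤ] M)
    (H3 : ∀ (r : Nat.Primes) (x : Tp p (JZero N)),
      ep (Tp.mapEnd (heckeEnd N r) x) = (τ r).baseChange ℤ_[p] (ep x)) (r : Nat.Primes) :
    conjHom p ep (τ r) = Tp.mapEnd (heckeEnd N r) := by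
  apply LinearMap.ext
  intro x
  rw [conjHom_apply, ← H3, LinearEquiv.symm_apply_apply]

/-- **The Hecke action on the Tate module.** -/
def theta (he : ∀ r, IsLift eC (Tr N 2 r) (τ r))
    (ep : Tp p (JZero N) ≃ₗ[ℤ_[p]] ℤ_[p] ⊗[ℤ] M) :
    CuspForm.heckeAlgebra N 2 S →+* Module.End ℤ_[p] (Tp p (JZero N)) :=
  (conjHom p ep).comp (thetaLat S he)

theorem theta_eq (he : ∀ r, IsLift eC (Tr N 2 r) (τ r))
    (ep : Tp p (JZero N) ≃ₗ[ℤ_[p]] ℤ_[p] ⊗[ℤ] M) (b : CuspForm.heckeAlgebra N 2 S) :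
    theta S p he ep b = conjHom p ep (thetaLat S he b) := rfl

theorem theta_apply (he : ∀ r, IsLift eC (Tr N 2 r) (τ r))
    (ep : Tp p (JZero N) ≃ₗ[ℤ_[p]] ℤ_[p] ⊗[ℤ] M) (b : CuspForm.heckeAlgebra N 2 S)
    (x : Tp p (JZero N)) :
    theta S p he ep b x = ep.symm ((thetaLat S he b).baseChange ℤ_[p] (ep x)) := rfl

/-- `T_ℓ` acts on the Tate module through the Hecke correspondence. -/
theorem theta_T (he : ∀ r, IsLift eC (Tr N 2 r) (τ r))
    (ep : Tp p (JZero N) ≃ₗ[ℤ_[p]] ℤ_[p] ⊗[ℤ] M)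
    (H3 : ∀ (r : Nat.Primes) (x : Tp p (JZero N)),
      ep (Tp.mapEnd (heckeEnd N r) x) = (τ r).baseChange ℤ_[p] (ep x))
    {ℓ : ℕ} (hℓ : ℓ.Prime) (hℓN : ¬ ℓ ∣ N) (hℓS : ℓ ∉ S) :
    theta S p he ep (CuspForm.heckeAlgebra.T hℓ hℓN hℓS) =
      Tp.mapEnd (heckeEnd N (⟨ℓ, hℓ⟩ : Nat.Primes)) :=
  (congrArg (conjHom p ep) (thetaLat_T S he hℓ hℓN hℓS)).trans (conjHom_tau p ep H3 _)

/-- The transported algebra generated by the `τ r` commutes with the Galois action. -/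
theorem commute_galoisHom_conjHom (ep : Tp p (JZero N) ≃ₗ[ℤ_[p]] ℤ_[p] ⊗[ℤ] M)
    (H3 : ∀ (r : Nat.Primes) (x : Tp p (JZero N)),
      ep (Tp.mapEnd (heckeEnd N r) x) = (τ r).baseChange ℤ_[p] (ep x))
    (σ : GQ) {t : Module.End ℤ M} (ht : t ∈ Algebra.adjoin ℤ (Set.range τ)) :
    Commute (Tp.galoisHom (p := p) (J := JZero N) GQ σ) (conjHom p ep t) := by
  induction ht using Algebra.adjoin_induction with
  | mem t ht =>
    obtain ⟨r, rfl⟩ := ht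
    rw [conjHom_tau p ep H3]
    exact Tp.commute_galoisHom_mapEnd σ _ (fun y => heckeEnd_smul N σ r y)
  | algebraMap n =>
    rw [Algebra.algebraMap_eq_smul_one, map_zsmul, map_one]
    have h1 : Commute (Tp.galoisHom (p := p) (J := JZero N) GQ σ)
        (1 : Module.End ℤ_[p] (Tp p (JZero N))) := Commute.one_right _
    exact Commute.smul_right h1 n
  | add t t' _ _ h h' =>
    rw [map_add]
    exact h.add_right h'
  | mul t t' _ _ h h' =>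
    rw [map_mul]
    exact h.mul_right h'

/-- The Hecke action commutes with the Galois action on the Tate module. -/
theorem commute_galoisHom_theta (he : ∀ r, IsLift eC (Tr N 2 r) (τ r))
    (ep : Tp p (JZero N) ≃ₗ[ℤ_[p]] ℤ_[p] ⊗[ℤ] M)
    (H3 : ∀ (r : Nat.Primes) (x : Tp p (JZero N)),
      ep (Tp.mapEnd (heckeEnd N r) x) = (τ r).baseChange ℤ_[p] (ep x))
    (σ : GQ) (b : CuspForm.heckeAlgebra N 2 S) :
    Commute (Tp.galoisHom (p := p) (J := JZero N) GQ σ) (theta S p he ep b) :=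
  commute_galoisHom_conjHom p ep H3 σ (thetaLat_mem S he b)

/-! ### (INJ) -/

section Inj

variable [Module.Finite ℤ M]

/-- **(INJ)**, first form. -/
theorem exists_exponent_theta (he : ∀ r, IsLift eC (Tr N 2 r) (τ r))
    (ep : Tp p (JZero N) ≃ₗ[ℤ_[p]] ℤ_[p] ⊗[ℤ] M) :
    ∃ c : ℕ, ∀ (n : ℕ) (b : CuspForm.heckeAlgebra N 2 S),
      (∀ v : Tp p (JZero N), theta S p he ep b v ∈
        (Ideal.span {(p : ℤ_[p])} ^ (n + c)) • (⊤ : Submodule ℤ_[p] (Tp p (JZero N)))) →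
        ∃ b' : CuspForm.heckeAlgebra N 2 S, b = (p ^ n : ℤ) • b' := by
  obtain ⟨c, hc⟩ := exists_exponent he (heckeAlgebra_le_adjoin N S) p
  refine ⟨c, fun n b hb => ?_⟩
  -- descend to `ℤ_[p] ⊗ M`
  have h1 : ∀ w : ℤ_[p] ⊗[ℤ] M, (thetaLat S he b).baseChange ℤ_[p] w ∈
      (Ideal.span {(p : ℤ_[p])} ^ (n + c)) • (⊤ : Submodule ℤ_[p] (ℤ_[p] ⊗[ℤ] M)) := by
    intro w
    have h2 := hb (ep.symm w)
    rw [theta_apply, LinearEquiv.apply_symm_apply] at h2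
    have h3 := Submodule.mem_map_of_mem (f := (ep : Tp p (JZero N) →ₗ[ℤ_[p]] ℤ_[p] ⊗[ℤ] M)) h2
    rw [Submodule.map_smul'', LinearEquiv.coe_coe, LinearEquiv.apply_symm_apply] at h3
    exact Submodule.smul_mono le_rfl le_top h3
  obtain ⟨φ, hφ⟩ := exists_smul_of_baseChange_mem p (thetaLat S he b) (n + c) h1
  exact hc n b φ hφ

/-- **(INJ)** in the shape consumed by `S31/Core.lean`. -/
theorem hinj (he : ∀ r, IsLift eC (Tr N 2 r) (τ r))
    (ep : Tp p (JZero N) ≃ₗ[ℤ_[p]] ℤ_[p] ⊗[ℤ] M) :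
    ∀ n : ℕ, ∃ n' : ℕ, ∀ t : CuspForm.heckeAlgebra N 2 S,
      (∀ v : Tp p (JZero N), theta S p he ep t v ∈
        (Ideal.span {(p : ℤ_[p])} ^ n') • (⊤ : Submodule ℤ_[p] (Tp p (JZero N)))) →
        t ∈ Ideal.span {(p : CuspForm.heckeAlgebra N 2 S) ^ n} := by
  obtain ⟨c, hc⟩ := exists_exponent_theta S p he ep
  intro n
  refine ⟨n + c, fun t ht => ?_⟩
  obtain ⟨b', rfl⟩ := hc n t ht
  rw [Ideal.mem_span_singleton]
  refine ⟨b', ?_⟩
  rw [zsmul_eq_mul]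
  push_cast
  rfl

end Inj

/-! ### The family `Tl` indexed by `ℕ` -/

open Classical in
/-- The Hecke operators `T_ℓ`, `ℓ ∤ N`, `ℓ ∉ S`, indexed by all natural numbers (zero elsewhere). -/
def Tl (N : ℕ) [NeZero N] (S : Set ℕ) (l : ℕ) : CuspForm.heckeAlgebra N 2 S :=
  if h : l.Prime ∧ ¬ l ∣ N ∧ l ∉ S then CuspForm.heckeAlgebra.T h.1 h.2.1 h.2.2 else 0

theorem Tl_eq {l : ℕ} (hl : l.Prime) (hlN : ¬ l ∣ N) (hlS : l ∉ S) :
    Tl N S l = CuspForm.heckeAlgebra.T hl hlN hlS :=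
  dif_pos ⟨hl, hlN, hlS⟩

theorem theta_Tl (he : ∀ r, IsLift eC (Tr N 2 r) (τ r))
    (ep : Tp p (JZero N) ≃ₗ[ℤ_[p]] ℤ_[p] ⊗[ℤ] M)
    (H3 : ∀ (r : Nat.Primes) (x : Tp p (JZero N)),
      ep (Tp.mapEnd (heckeEnd N r) x) = (τ r).baseChange ℤ_[p] (ep x))
    {l : ℕ} (hl : l.Prime) (hlN : ¬ l ∣ N) (hlS : l ∉ S) :
    theta S p he ep (Tl N S l) = Tp.mapEnd (heckeEnd N (⟨l, hl⟩ : Nat.Primes)) := by
  rw [Tl_eq S hl hlN hlS]
  exact theta_T S p he ep H3 hl hlN hlS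

/-- **(COMM)** in the shape consumed by `S31/Core.lean`. -/
theorem hcomm (he : ∀ r, IsLift eC (Tr N 2 r) (τ r))
    (ep : Tp p (JZero N) ≃ₗ[ℤ_[p]] ℤ_[p] ⊗[ℤ] M)
    (H3 : ∀ (r : Nat.Primes) (x : Tp p (JZero N)),
      ep (Tp.mapEnd (heckeEnd N r) x) = (τ r).baseChange ℤ_[p] (ep x)) :
    ∀ (l : ℕ) (g : GQ),
      Commute (theta S p he ep (Tl N S l)) (Tp.galoisHom (p := p) (J := JZero N) GQ g) :=
  fun l g => (commute_galoisHom_theta S p he ep H3 g (Tl N S l)).symm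

end Fermat.Agent.S31.HeckeAction
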