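import Fermat.Agent.S31.HeckeAction
import Fermat.Agent.S31.Assembly

/-!
# PROJECT L (S31), slice L-2 (glue): the Hecke-Galois module `T_p J₀(N)`

`hasHeckeModule_of` : `Assembly.HasHeckeModule p N S` with `Λ := Tp p (JZero N)`,
`r := Tp.galoisHom G_ℚ`, `θ := HeckeAction.theta`, from

* the lattice inputs of `S30/Final/Chain.lean`: `(M, τ)`, the Eichler–Shimura isomorphism
  `(eC, he)` and the Tate comparison `(ep, H3)`;
* the three arithmetic facts on the Tate module (`S31/TateArith.lean`): adic continuity `hC`,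
  triviality of inertia at `q ∤ N p` (`hUR`), and the Eichler–Shimura relation at Frobenius lifts
  (`hES`).
-/

set_option autoImplicit false
set_option linter.unusedSectionVars false

noncomputable section

namespace Fermat.Agent.S31.HeckeModule

open scoped TensorProduct
open CongruenceSubgroup ModularCurve
open Fermat.Agent.S31.LiftAlg Fermat.Agent.S31.HeckeAction Fermat.Agent.S31.Assembly
open Fermat.Agent.S30.Eigen.MultOne
open Fermat.Agent.S30.Padic.TateModule Fermat.Agent.S30.Arith.TateInputs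

local notation "GQ" => (AlgebraicClosure ℚ ≃ₐ[ℚ] AlgebraicClosure ℚ)
local notation "Qbar" => AlgebraicClosure ℚ

/-- **The Hecke-Galois module of S31**, from the lattice inputs and the arithmetic of the Tate
module. -/
theorem hasHeckeModule_of (p : ℕ) [Fact p.Prime] (N : ℕ) [NeZero N] (S : Finset ℕ) (hpS : p ∈ S)
    {M : Type*} [AddCommGroup M] [Module.Free ℤ M] [Module.Finite ℤ M]
    {τ : Nat.Primes → Module.End ℤ M}
    {eC : ℂ ⊗[ℤ] M ≃ₗ[ℂ] CuspForm (Gamma0 N) 2 × CuspForm (Gamma0 N) 2}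
    (he : ∀ r x, eC ((τ r).baseChange ℂ x) = Prod.map (Tr N 2 r) (Tr N 2 r) (eC x))
    (ep : Tp p (JZero N) ≃ₗ[ℤ_[p]] ℤ_[p] ⊗[ℤ] M)
    (H3 : ∀ (r : Nat.Primes) (x : Tp p (JZero N)),
      ep (Tp.mapEnd (heckeEnd N r) x) = (τ r).baseChange ℤ_[p] (ep x))
    (hC : ∀ n : ℕ, ∃ L : IntermediateField ℚ Qbar, FiniteDimensional ℚ L ∧
      ∀ u : GQ, (∀ x ∈ L, u x = x) → ∀ v : Tp p (JZero N),
        Tp.galoisHom (p := p) (J := JZero N) GQ u v - v ∈
          (Ideal.span {(p : ℤ_[p])} ^ n) • (⊤ : Submodule ℤ_[p] (Tp p (JZero N))))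
    (hUR : ∀ q : ℕ, q.Prime → ¬ q ∣ N → q ≠ p → ∀ P : ValuationSubring Qbar, P.LiesOverPrime q →
      ∀ σ ∈ P.inertiaSubgroupIn ℚ, Tp.galoisHom (p := p) (J := JZero N) GQ σ = 1)
    (hES : ∀ (ℓ : ℕ) (hℓ : ℓ.Prime), ¬ ℓ ∣ N → ℓ ≠ p →
      ∀ A : ValuationSubring Qbar, A.LiesOverPrime ℓ → ∀ t : GQ, A.IsFrobeniusAt t ℓ →
        Tp.galoisHom (p := p) (J := JZero N) GQ t * Tp.galoisHom (p := p) (J := JZero N) GQ t -
          Tp.mapEnd (heckeEnd N (⟨ℓ, hℓ⟩ : Nat.Primes)) * Tp.galoisHom (p := p) (J := JZero N) GQ t +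
            ((ℓ : ℕ) : Module.End ℤ_[p] (Tp p (JZero N))) = 0) :
    HasHeckeModule p N S := by
  have he' : ∀ r, IsLift eC (Tr N 2 r) (τ r) := fun r => he r
  have hK : ∀ (ℓ : ℕ) (hℓ : ℓ.Prime) (hℓN : ¬ ℓ ∣ N) (hℓS : ℓ ∉ (↑S : Set ℕ)) (g : GQ),
      Commute (theta (↑S : Set ℕ) p he' ep (CuspForm.heckeAlgebra.T hℓ hℓN hℓS))
        (Tp.galoisHom (p := p) (J := JZero N) GQ g) := by
    intro ℓ hℓ hℓN hℓS g
    exact (commute_galoisHom_theta (↑S : Set ℕ) p he' ep H3 g _).symm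
  have hE : ∀ (ℓ : ℕ) (hℓ : ℓ.Prime) (hℓN : ¬ ℓ ∣ N) (hℓS : ℓ ∉ (↑S : Set ℕ)),
      ∀ A : ValuationSubring Qbar, A.LiesOverPrime ℓ → ∀ t : GQ, A.IsFrobeniusAt t ℓ →
        Tp.galoisHom (p := p) (J := JZero N) GQ t * Tp.galoisHom (p := p) (J := JZero N) GQ t -
          theta (↑S : Set ℕ) p he' ep (CuspForm.heckeAlgebra.T hℓ hℓN hℓS) *
            Tp.galoisHom (p := p) (J := JZero N) GQ t +
            ((ℓ : ℕ) : Module.End ℤ_[p] (Tp p (JZero N))) = 0 := by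
    intro ℓ hℓ hℓN hℓS A hA t ht
    rw [theta_T (↑S : Set ℕ) p he' ep H3 hℓ hℓN hℓS]
    refine hES ℓ hℓ hℓN ?_ A hA t ht
    rintro rfl
    exact hℓS (Finset.mem_coe.mpr hpS)
  exact ⟨Tp p (JZero N), _, _, Tp.galoisHom (p := p) (J := JZero N) GQ,
    theta (↑S : Set ℕ) p he' ep, hC, hK, hE, hinj (↑S : Set ℕ) p he' ep, hUR⟩

end Fermat.Agent.S31.HeckeModule
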