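import Mathlib

/-!
# PROJECT L (S31), slice L-2a: lifting a Hecke algebra from forms to a lattice (abstract part)

Setting: a free `ℤ`-module `M` with operators `τ i`, a complex vector space `W` with operators
`T i`, and an isomorphism `e : ℂ ⊗ M ≃ W × W` intertwining `τ i ⊗ 1` with `T i × T i`.

* `IsLift e b t` : the endomorphism `t` of `M` becomes `b × b` under `e`;
* `thetaM he` : the ring homomorphism `Algebra.adjoin ℤ (range T) →+* End_ℤ M`, `T i ↦ τ i`,
  which is injective (`thetaM_injective`);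
* `exists_exponent` : saturation exponent: there is `c` such that for every `b` in a subalgebra
  `𝔸 ≤ adjoin ℤ (range T)`, `thetaM b ∈ p^(n+c) End M` implies `b ∈ p^n 𝔸`;
* `exists_smul_of_baseChange_eq` : divisibility by `p^k` of an endomorphism of `M` can be tested
  after base change to `ℤ_[p]`.
-/

set_option autoImplicit false
set_option linter.unusedSectionVars false

open scoped TensorProduct

namespace Fermat.Agent.S31.LiftAlg

/-! ### Lifts -/

section Lift

variable {ι : Type*} {M : Type*} [AddCommGroup M] [Module.Free ℤ M]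
  {τ : ι → Module.End ℤ M}
  {W : Type*} [AddCommGroup W] [Module ℂ W]
  {T : ι → Module.End ℂ W}

/-- `t` lifts `b`: under `e`, the base change of `t` becomes `b × b`. -/
def IsLift (e : ℂ ⊗[ℤ] M ≃ₗ[ℂ] W × W) (b : Module.End ℂ W) (t : Module.End ℤ M) : Prop :=
  ∀ x, e (t.baseChange ℂ x) = Prod.map b b (e x)

variable {e : ℂ ⊗[ℤ] M ≃ₗ[ℂ] W × W}

theorem IsLift.unique {b : Module.End ℂ W} {t t' : Module.End ℤ M} (h : IsLift e b t)
    (h' : IsLift e b t') : t = t' := by
  apply LinearMap.baseChangeHom_injective ℤ M ℂ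
  apply LinearMap.ext
  intro x
  apply e.injective
  simp only [LinearMap.baseChangeHom_apply]
  rw [h, h']

theorem IsLift.injective {b b' : Module.End ℂ W} {t : Module.End ℤ M} (h : IsLift e b t)
    (h' : IsLift e b' t) : b = b' := by
  apply LinearMap.ext
  intro w
  have h1 := h (e.symm (w, 0))
  have h2 := h' (e.symm (w, 0))
  rw [h1, LinearEquiv.apply_symm_apply] at h2
  exact congrArg Prod.fst h2

theorem IsLift.one : IsLift e 1 1 := by
  intro x
  rw [LinearMap.baseChange_one, Module.End.one_apply]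
  ext <;> simp

theorem IsLift.zero : IsLift e 0 0 := by
  intro x
  rw [LinearMap.baseChange_zero, LinearMap.zero_apply, map_zero]
  ext <;> simp

theorem IsLift.add {b b' : Module.End ℂ W} {t t' : Module.End ℤ M} (h : IsLift e b t)
    (h' : IsLift e b' t') : IsLift e (b + b') (t + t') := by
  intro x
  rw [LinearMap.baseChange_add, LinearMap.add_apply, map_add, h, h']
  ext <;> simp

theorem IsLift.mul {b b' : Module.End ℂ W} {t t' : Module.End ℤ M} (h : IsLift e b t)
    (h' : IsLift e b' t') : IsLift e (b * b') (t * t') := by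
  intro x
  rw [LinearMap.baseChange_mul, Module.End.mul_apply, h, h']
  ext <;> simp

theorem IsLift.zsmul {b : Module.End ℂ W} {t : Module.End ℤ M} (h : IsLift e b t) (r : ℤ) :
    IsLift e (r • b) (r • t) := by
  intro x
  rw [LinearMap.baseChange_smul, LinearMap.smul_apply, map_zsmul, h]
  ext <;> simp

theorem IsLift.algebraMap (r : ℤ) :
    IsLift e (algebraMap ℤ (Module.End ℂ W) r) (algebraMap ℤ (Module.End ℤ M) r) := by
  rw [Algebra.algebraMap_eq_smul_one, Algebra.algebraMap_eq_smul_one]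
  exact IsLift.one.zsmul r

/-- Every element of the algebra generated by the `T i` has a lift in the algebra generated by
the `τ i`. -/
theorem exists_lift (he : ∀ i, IsLift e (T i) (τ i)) {b : Module.End ℂ W}
    (hb : b ∈ Algebra.adjoin ℤ (Set.range T)) :
    ∃ t ∈ Algebra.adjoin ℤ (Set.range τ), IsLift e b t := by
  induction hb using Algebra.adjoin_induction with
  | mem b hb =>
    obtain ⟨i, rfl⟩ := hb
    exact ⟨τ i, Algebra.subset_adjoin ⟨i, rfl⟩, he i⟩
  | algebraMap r => exact ⟨_, Subalgebra.algebraMap_mem _ r, IsLift.algebraMap r⟩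
  | add b b' _ _ hb hb' =>
    obtain ⟨t, ht, h⟩ := hb
    obtain ⟨t', ht', h'⟩ := hb'
    exact ⟨t + t', Subalgebra.add_mem _ ht ht', h.add h'⟩
  | mul b b' _ _ hb hb' =>
    obtain ⟨t, ht, h⟩ := hb
    obtain ⟨t', ht', h'⟩ := hb'
    exact ⟨t * t', Subalgebra.mul_mem _ ht ht', h.mul h'⟩

/-- The lift, as a function. -/
noncomputable def thetaFun (he : ∀ i, IsLift e (T i) (τ i))
    (b : Algebra.adjoin ℤ (Set.range T)) : Module.End ℤ M :=
  Classical.choose (exists_lift he b.2)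

theorem thetaFun_mem (he : ∀ i, IsLift e (T i) (τ i)) (b : Algebra.adjoin ℤ (Set.range T)) :
    thetaFun he b ∈ Algebra.adjoin ℤ (Set.range τ) :=
  (Classical.choose_spec (exists_lift he b.2)).1

theorem thetaFun_spec (he : ∀ i, IsLift e (T i) (τ i)) (b : Algebra.adjoin ℤ (Set.range T)) :
    IsLift e (b : Module.End ℂ W) (thetaFun he b) :=
  (Classical.choose_spec (exists_lift he b.2)).2

/-- **The lifted action**: the ring homomorphism `adjoin ℤ (range T) →+* End_ℤ M`, `T i ↦ τ i`. -/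
noncomputable def thetaM (he : ∀ i, IsLift e (T i) (τ i)) :
    Algebra.adjoin ℤ (Set.range T) →+* Module.End ℤ M where
  toFun := thetaFun he
  map_one' := (thetaFun_spec he 1).unique IsLift.one
  map_mul' b b' := (thetaFun_spec he (b * b')).unique ((thetaFun_spec he b).mul (thetaFun_spec he b'))
  map_zero' := (thetaFun_spec he 0).unique IsLift.zero
  map_add' b b' := (thetaFun_spec he (b + b')).unique ((thetaFun_spec he b).add (thetaFun_spec he b'))

theorem thetaM_spec (he : ∀ i, IsLift e (T i) (τ i)) (b : Algebra.adjoin ℤ (Set.range T)) :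
    IsLift e (b : Module.End ℂ W) (thetaM he b) := thetaFun_spec he b

theorem thetaM_mem (he : ∀ i, IsLift e (T i) (τ i)) (b : Algebra.adjoin ℤ (Set.range T)) :
    thetaM he b ∈ Algebra.adjoin ℤ (Set.range τ) := thetaFun_mem he b

theorem thetaM_eq_of_isLift (he : ∀ i, IsLift e (T i) (τ i)) (b : Algebra.adjoin ℤ (Set.range T))
    {t : Module.End ℤ M} (h : IsLift e (b : Module.End ℂ W) t) : thetaM he b = t :=
  (thetaM_spec he b).unique h

theorem thetaM_gen (he : ∀ i, IsLift e (T i) (τ i)) (i : ι) :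
    thetaM he ⟨T i, Algebra.subset_adjoin ⟨i, rfl⟩⟩ = τ i :=
  thetaM_eq_of_isLift he _ (he i)

theorem thetaM_injective (he : ∀ i, IsLift e (T i) (τ i)) : Function.Injective (thetaM he) := by
  intro b b' h
  apply Subtype.ext
  have h1 := thetaM_spec he b
  rw [h] at h1
  exact h1.injective (thetaM_spec he b')

theorem thetaM_zsmul (he : ∀ i, IsLift e (T i) (τ i)) (r : ℤ)
    (b : Algebra.adjoin ℤ (Set.range T)) : thetaM he (r • b) = r • thetaM he b :=
  thetaM_eq_of_isLift he _ ((thetaM_spec he b).zsmul r)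

end Lift

/-! ### Saturation exponent -/

section Saturation

/-- In a finitely generated abelian group `E` with a subgroup `P`, the `p`-primary torsion of
`E ⧸ P` has bounded exponent. -/
theorem exists_saturation_exponent {E : Type*} [AddCommGroup E] [Module.Finite ℤ E]
    (P : Submodule ℤ E) (p : ℕ) :
    ∃ c : ℕ, ∀ (n : ℕ) (x : E), (p ^ (n + c) : ℤ) • x ∈ P → (p ^ c : ℤ) • x ∈ P := by
  let K : ℕ →o Submodule ℤ E :=
    ⟨fun k => P.comap (((p : ℤ) ^ k) • (LinearMap.id : E →ₗ[ℤ] E)), by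
      intro k k' hkk' x hx
      rw [Submodule.mem_comap, LinearMap.smul_apply, LinearMap.id_apply] at hx ⊢
      obtain ⟨d, rfl⟩ := Nat.exists_eq_add_of_le hkk'
      rw [pow_add, mul_comm, mul_smul]
      exact P.smul_mem _ hx⟩
  obtain ⟨c, hc⟩ := monotone_stabilizes_iff_noetherian.mpr
    (inferInstance : IsNoetherian ℤ E) K
  refine ⟨c, fun n x hx => ?_⟩
  have h1 : x ∈ K (n + c) := by
    change x ∈ P.comap (((p : ℤ) ^ (n + c)) • (LinearMap.id : E →ₗ[ℤ] E))
    rw [Submodule.mem_comap, LinearMap.smul_apply, LinearMap.id_apply]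
    exact hx
  rw [← hc (n + c) (Nat.le_add_left _ _)] at h1
  change x ∈ P.comap (((p : ℤ) ^ c) • (LinearMap.id : E →ₗ[ℤ] E)) at h1
  rw [Submodule.mem_comap, LinearMap.smul_apply, LinearMap.id_apply] at h1
  exact h1

variable {ι : Type*} {M : Type*} [AddCommGroup M] [Module.Free ℤ M]
  {τ : ι → Module.End ℤ M}
  {W : Type*} [AddCommGroup W] [Module ℂ W]
  {T : ι → Module.End ℂ W} {e : ℂ ⊗[ℤ] M ≃ₗ[ℂ] W × W}

/-- The lifted action restricted to a subalgebra of the algebra generated by the `T i`. -/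
noncomputable def thetaSub (he : ∀ i, IsLift e (T i) (τ i)) {𝔸 : Subalgebra ℤ (Module.End ℂ W)}
    (h𝔸 : 𝔸 ≤ Algebra.adjoin ℤ (Set.range T)) : 𝔸 →+* Module.End ℤ M :=
  (thetaM he).comp (Subalgebra.inclusion h𝔸).toRingHom

theorem thetaSub_spec (he : ∀ i, IsLift e (T i) (τ i)) {𝔸 : Subalgebra ℤ (Module.End ℂ W)}
    (h𝔸 : 𝔸 ≤ Algebra.adjoin ℤ (Set.range T)) (b : 𝔸) :
    IsLift e (b : Module.End ℂ W) (thetaSub he h𝔸 b) :=
  thetaM_spec he (Subalgebra.inclusion h𝔸 b)

theorem thetaSub_mem (he : ∀ i, IsLift e (T i) (τ i)) {𝔸 : Subalgebra ℤ (Module.End ℂ W)}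
    (h𝔸 : 𝔸 ≤ Algebra.adjoin ℤ (Set.range T)) (b : 𝔸) :
    thetaSub he h𝔸 b ∈ Algebra.adjoin ℤ (Set.range τ) :=
  thetaM_mem he (Subalgebra.inclusion h𝔸 b)

theorem thetaSub_eq_of_isLift (he : ∀ i, IsLift e (T i) (τ i))
    {𝔸 : Subalgebra ℤ (Module.End ℂ W)} (h𝔸 : 𝔸 ≤ Algebra.adjoin ℤ (Set.range T)) (b : 𝔸)
    {t : Module.End ℤ M} (h : IsLift e (b : Module.End ℂ W) t) : thetaSub he h𝔸 b = t :=
  (thetaSub_spec he h𝔸 b).unique h

theorem thetaSub_injective (he : ∀ i, IsLift e (T i) (τ i))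
    {𝔸 : Subalgebra ℤ (Module.End ℂ W)} (h𝔸 : 𝔸 ≤ Algebra.adjoin ℤ (Set.range T)) :
    Function.Injective (thetaSub he h𝔸) := fun _ _ h =>
  Subalgebra.inclusion_injective h𝔸 (thetaM_injective he h)

variable [Module.Finite ℤ M]

/-- **Saturation**: there is `c` such that for `b` in a subalgebra `𝔸` of the algebra generated by
the `T i`, divisibility of the lift of `b` by `p ^ (n + c)` in `End_ℤ M` implies divisibility of
`b` by `p ^ n` in `𝔸`. -/
theorem exists_exponent (he : ∀ i, IsLift e (T i) (τ i)) {𝔸 : Subalgebra ℤ (Module.End ℂ W)}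
    (h𝔸 : 𝔸 ≤ Algebra.adjoin ℤ (Set.range T)) (p : ℕ) :
    ∃ c : ℕ, ∀ (n : ℕ) (b : 𝔸) (φ : Module.End ℤ M),
      thetaSub he h𝔸 b = (p ^ (n + c) : ℤ) • φ → ∃ b' : 𝔸, b = (p ^ n : ℤ) • b' := by
  let f : 𝔸 →+ Module.End ℤ M := (thetaSub he h𝔸).toAddMonoidHom
  have hf : ∀ b, f b = thetaSub he h𝔸 b := fun _ => rfl
  have hfinj : Function.Injective f := thetaSub_injective he h𝔸
  obtain ⟨c, hc⟩ := exists_saturation_exponent (AddSubgroup.toIntSubmodule f.range) p
  refine ⟨c, fun n b φ hb => ?_⟩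
  have h1 : (p ^ (n + c) : ℤ) • φ ∈ AddSubgroup.toIntSubmodule f.range := by
    rw [← hb, ← hf]
    exact ⟨b, rfl⟩
  obtain ⟨b', hb'⟩ := hc n φ h1
  refine ⟨b', hfinj ?_⟩
  rw [map_zsmul, hb', hf, hb, pow_add, mul_smul]

end Saturation

/-! ### Divisibility after base change to `ℤ_[p]` -/

section BaseChange

open Algebra.TensorProduct in
/-- Divisibility of an endomorphism of a finite free `ℤ`-module by `p ^ k` can be tested after
base change to `ℤ_[p]`. -/
theorem exists_smul_of_baseChange_eq (p : ℕ) [Fact p.Prime] {M : Type*} [AddCommGroup M]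
    [Module.Free ℤ M] [Module.Finite ℤ M] (t : Module.End ℤ M) (k : ℕ)
    (ψ : Module.End ℤ_[p] (ℤ_[p] ⊗[ℤ] M))
    (h : t.baseChange ℤ_[p] = ((p : ℤ_[p]) ^ k) • ψ) :
    ∃ φ : Module.End ℤ M, t = (p ^ k : ℤ) • φ := by
  classical
  let b := Module.Free.chooseBasis ℤ M
  set A := LinearMap.toMatrix b b t with hAdef
  set Ψ := LinearMap.toMatrix (basis ℤ_[p] b) (basis ℤ_[p] b) ψ with hΨdef
  have hA : A.map (algebraMap ℤ ℤ_[p]) = ((p : ℤ_[p]) ^ k) • Ψ := by
    rw [hAdef, ← LinearMap.toMatrix_baseChange, h, map_smul]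
  have hdvd : ∀ i j, (p ^ k : ℤ) ∣ A i j := by
    intro i j
    rw [← PadicInt.pow_p_dvd_int_iff]
    refine ⟨Ψ i j, ?_⟩
    have := congrFun (congrFun hA i) j
    simpa using this
  choose B hB using hdvd
  refine ⟨Matrix.toLin b b (Matrix.of B), ?_⟩
  have hAB : A = (p ^ k : ℤ) • Matrix.of B := by
    ext i j
    rw [Matrix.smul_apply, Matrix.of_apply, smul_eq_mul]
    exact hB i j
  calc t = Matrix.toLin b b A := (Matrix.toLin_toMatrix b b t).symm
    _ = (p ^ k : ℤ) • Matrix.toLin b b (Matrix.of B) := by rw [hAB, map_smul]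

open Algebra.TensorProduct in
/-- The same with the hypothesis in the form `∀ v, t v ∈ p^k • ⊤`. -/
theorem exists_smul_of_baseChange_mem (p : ℕ) [Fact p.Prime] {M : Type*} [AddCommGroup M]
    [Module.Free ℤ M] [Module.Finite ℤ M] (t : Module.End ℤ M) (k : ℕ)
    (h : ∀ v : ℤ_[p] ⊗[ℤ] M, t.baseChange ℤ_[p] v ∈
      (Ideal.span {(p : ℤ_[p])} ^ k) • (⊤ : Submodule ℤ_[p] (ℤ_[p] ⊗[ℤ] M))) :
    ∃ φ : Module.End ℤ M, t = (p ^ k : ℤ) • φ := by
  classical
  let b := Module.Free.chooseBasis ℤ M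
  set A := LinearMap.toMatrix b b t with hAdef
  have hrepr : ∀ x ∈ (Ideal.span {(p : ℤ_[p])} ^ k) • (⊤ : Submodule ℤ_[p] (ℤ_[p] ⊗[ℤ] M)),
      ∀ i, (p : ℤ_[p]) ^ k ∣ (basis ℤ_[p] b).repr x i := by
    intro x hx i
    refine Submodule.smul_induction_on hx ?_ ?_
    · intro a ha y _
      rw [Ideal.span_singleton_pow, Ideal.mem_span_singleton] at ha
      rw [map_smul, Finsupp.smul_apply, smul_eq_mul]
      exact Dvd.dvd.mul_right ha _
    · intro y z hy hz
      rw [map_add, Finsupp.add_apply]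
      exact dvd_add hy hz
  have hdvd : ∀ i j, (p ^ k : ℤ) ∣ A i j := by
    intro i j
    rw [← PadicInt.pow_p_dvd_int_iff]
    have h1 := hrepr _ (h (basis ℤ_[p] b j)) i
    have h2 : (LinearMap.toMatrix (basis ℤ_[p] b) (basis ℤ_[p] b) (t.baseChange ℤ_[p])) i j =
        ((A i j : ℤ) : ℤ_[p]) := by
      rw [LinearMap.toMatrix_baseChange]
      simp [hAdef]
    rw [LinearMap.toMatrix_apply] at h2
    rw [← h2]
    exact h1
  choose B hB using hdvd
  refine ⟨Matrix.toLin b b (Matrix.of B), ?_⟩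
  have hAB : A = (p ^ k : ℤ) • Matrix.of B := by
    ext i j
    rw [Matrix.smul_apply, Matrix.of_apply, smul_eq_mul]
    exact hB i j
  calc t = Matrix.toLin b b A := (Matrix.toLin_toMatrix b b t).symm
    _ = (p ^ k : ℤ) • Matrix.toLin b b (Matrix.of B) := by rw [hAB, map_smul]

end BaseChange

end Fermat.Agent.S31.LiftAlg
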